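import Mathlib.NumberTheory.NumberField.Basic
import Mathlib.RingTheory.Ideal.Norm.AbsNorm
import Mathlib.Analysis.SpecialFunctions.Pow.Real
import Mathlib.Analysis.Complex.Basic

/-!
# Characters of ray class groups as functions on ideals

`IsRayChar m χ`: `χ` is completely multiplicative on ideals, vanishes on ideals not prime to `m`,
has absolute value one on nonzero ideals prime to `m`, and its value at a principal ideal prime
to `m` depends only on the generator modulo `m`.
-/

noncomputable section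

open NumberField

namespace Fermat.Agent.ClassField.Analytic

variable {K : Type*} [Field K] [NumberField K]

/-- A character of the ray class group modulo `m` (no sign conditions), as a function on ideals. -/
structure IsRayChar (m : Ideal (𝓞 K)) (χ : Ideal (𝓞 K) →* ℂ) : Prop where
  eq_zero : ∀ I : Ideal (𝓞 K), I ⊔ m ≠ ⊤ → χ I = 0
  norm_eq_one : ∀ I : Ideal (𝓞 K), I ≠ ⊥ → I ⊔ m = ⊤ → ‖χ I‖ = 1
  congr_mod : ∀ x y : 𝓞 K, x ≠ 0 → y ≠ 0 → Ideal.span {x} ⊔ m = ⊤ → x - y ∈ m →
    χ (Ideal.span {x}) = χ (Ideal.span {y})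

/-- The term `χ(I) N(I)^{-s}` of the Dirichlet series of `χ`. -/
def lTerm (χ : Ideal (𝓞 K) → ℂ) (s : ℝ) (I : Ideal (𝓞 K)) : ℂ :=
  χ I * (((Ideal.absNorm I : ℝ) ^ (-s) : ℝ) : ℂ)

end Fermat.Agent.ClassField.Analytic
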