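import Fermat.Agent.ClassField.Analytic.Residues

/-!
# Boundedness of `L(s, χ)` near `s = 1` for a nontrivial ray class character
-/

noncomputable section

open NumberField Module NumberField.Units nonZeroDivisors
open scoped Classical

namespace Fermat.Agent.ClassField.Analytic

variable {K : Type*} [Field K] [NumberField K]

theorem summable_norm_lTerm {m : Ideal (𝓞 K)} {χ : Ideal (𝓞 K) →* ℂ} (hχ : IsRayChar m χ)
    {s : ℝ} (hs : 1 < s) : Summable fun I ↦ ‖lTerm χ s I‖ :=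
  summable_norm_lTerm' (fun _ hI ↦ norm_apply_le_one hχ hI) hs

lemma abs_rpow_sub_one_le {a t : ℝ} (ha : 1 ≤ a) (ht : 0 ≤ t) (ht' : t ≤ 1) :
    |a ^ t - 1| ≤ t * (Real.log a * a) := by
  have hlog : 0 ≤ Real.log a := Real.log_nonneg ha
  have h1 : a ^ t - 1 ≤ Real.log a * t * a ^ t := by
    have h := mul_le_mul_of_nonneg_left (Real.add_one_le_exp (-(Real.log a * t)))
      (Real.exp_pos (Real.log a * t)).le
    rw [← Real.exp_add, add_neg_cancel, Real.exp_zero] at h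
    rw [Real.rpow_def_of_pos (by linarith)]
    linarith
  rw [abs_of_nonneg (sub_nonneg.mpr (Real.one_le_rpow ha ht))]
  calc a ^ t - 1 ≤ Real.log a * t * a ^ t := h1
    _ ≤ Real.log a * t * a := mul_le_mul_of_nonneg_left (Real.rpow_le_self_of_one_le ha ht')
        (mul_nonneg hlog ht)
    _ = t * (Real.log a * a) := by ring

theorem sum_resVal_mul_sum_inv_eq_zero {m : Ideal (𝓞 K)} {χ : Ideal (𝓞 K) →* ℂ}
    (hχ : IsRayChar m χ) (hm : m ≠ ⊥) [Fintype (𝓞 K ⧸ m)]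
    (hne : ∃ I : Ideal (𝓞 K), I ≠ ⊥ ∧ I ⊔ m = ⊤ ∧ χ I ≠ 1)
    (J : ClassGroup (𝓞 K) → (Ideal (𝓞 K))⁰) (hJc : ∀ c, ClassGroup.mk0 (J c) = c⁻¹)
    (hJm : ∀ c, (J c : Ideal (𝓞 K)) ⊔ m = ⊤) :
    (∑ β : 𝓞 K ⧸ m, resVal χ hm β) * ∑ c, (χ (J c : Ideal (𝓞 K)))⁻¹ = 0 := by
  by_cases hprinc : ∃ x : 𝓞 K, x ≠ 0 ∧ Ideal.span {x} ⊔ m = ⊤ ∧ χ (Ideal.span {x}) ≠ 1
  · obtain ⟨x, hx, hc, hx1⟩ := hprinc
    rw [sum_resVal_eq_zero hχ hm hx hc hx1, zero_mul]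
  · have hclass : ∀ (c : ClassGroup (𝓞 K)) (I : InClass c), I.1 ⊔ m = ⊤ →
        χ I.1 = (χ (J c : Ideal (𝓞 K)))⁻¹ := by
      intro c I hI
      let Q := classEquiv (J c) (hJc c) I
      have hcop : Ideal.span {gen Q} ⊔ m = ⊤ := by
        rw [span_gen, classEquiv_apply]
        exact Ideal.isCoprime_iff_sup_eq.mp
          ((Ideal.isCoprime_iff_sup_eq.mpr (hJm c)).mul_left (Ideal.isCoprime_iff_sup_eq.mpr hI))
      have h1 : χ (Ideal.span {gen Q}) = 1 :=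
        not_ne_iff.mp fun h ↦ hprinc ⟨_, gen_ne_zero Q, hcop, h⟩
      rw [span_gen, classEquiv_apply, map_mul] at h1
      exact eq_inv_of_mul_eq_one_right h1
    obtain ⟨I₀, hI₀, hI₀m, hI₀1⟩ := hne
    have hI₀' : I₀ ∈ (Ideal (𝓞 K))⁰ := mem_nonZeroDivisors_iff_ne_zero.mpr hI₀
    set c₀ := ClassGroup.mk0 ⟨I₀, hI₀'⟩ with hc₀
    have hshift : ∀ c, (χ (J (c * c₀) : Ideal (𝓞 K)))⁻¹ =
        (χ (J c : Ideal (𝓞 K)))⁻¹ * χ I₀ := by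
      intro c
      obtain ⟨I, hIc, hIm⟩ := exists_rep_coprime hm c
      rw [← hclass c ⟨I.1, I.2, hIc⟩ hIm, ← hclass (c * c₀)
        ⟨I.1 * I₀, mul_mem I.2 hI₀', by rw [← hIc, hc₀, ← map_mul]; rfl⟩
        (Ideal.isCoprime_iff_sup_eq.mp
          ((Ideal.isCoprime_iff_sup_eq.mpr hIm).mul_left
            (Ideal.isCoprime_iff_sup_eq.mpr hI₀m))), map_mul]
    have h2 : ∑ c, (χ (J c : Ideal (𝓞 K)))⁻¹ =
        (∑ c, (χ (J c : Ideal (𝓞 K)))⁻¹) * χ I₀ := by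
      conv_lhs => rw [← Equiv.sum_comp (Equiv.mulRight c₀)
        (fun c ↦ (χ (J c : Ideal (𝓞 K)))⁻¹)]
      rw [Finset.sum_mul]
      exact Finset.sum_congr rfl fun c _ ↦ hshift c
    have h3 : (∑ c, (χ (J c : Ideal (𝓞 K)))⁻¹) * (1 - χ I₀) = 0 := by
      rw [mul_sub, mul_one, ← h2, sub_self]
    rw [(mul_eq_zero.mp h3).resolve_right (sub_ne_zero.mpr (Ne.symm hI₀1)), mul_zero]

theorem tsum_inClass_eq {χ : Ideal (𝓞 K) →* ℂ} (hψ : ∀ I, I ≠ ⊥ → ‖χ I‖ ≤ 1) {s : ℝ}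
    (hs : 1 < s) {c : ClassGroup (𝓞 K)} (J : (Ideal (𝓞 K))⁰) (hJ : ClassGroup.mk0 J = c⁻¹)
    (hJne : χ (J : Ideal (𝓞 K)) ≠ 0) :
    ∑' I : InClass c, lTerm χ s I.1 =
      (torsionOrder K : ℂ)⁻¹ * (χ (J : Ideal (𝓞 K)))⁻¹ *
        (((Ideal.absNorm (J : Ideal (𝓞 K)) : ℝ) ^ s : ℝ) : ℂ) *
      ∑' x : (J : Ideal (𝓞 K)), χ (Ideal.span {(x : 𝓞 K)}) * (gInt s (x : 𝓞 K) : ℂ) := by
  rw [← (hasSum_inClass J hJ hψ hs).tsum_eq, tsum_mul_left]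
  have hpos : (0 : ℝ) < (Ideal.absNorm (J : Ideal (𝓞 K)) : ℝ) :=
    Nat.cast_pos.mpr (Nat.pos_of_ne_zero
      (Ideal.absNorm_eq_zero_iff.not.mpr (mem_nonZeroDivisors_iff_ne_zero.mp J.2)))
  have hne : (torsionOrder K : ℂ) * lTerm χ s (J : Ideal (𝓞 K)) ≠ 0 :=
    mul_ne_zero (Nat.cast_ne_zero.mpr (torsionOrder_pos K).ne')
      (mul_ne_zero hJne (Complex.ofReal_ne_zero.mpr (Real.rpow_pos_of_pos hpos _).ne'))
  have hinv : (torsionOrder K : ℂ)⁻¹ * (χ (J : Ideal (𝓞 K)))⁻¹ *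
      (((Ideal.absNorm (J : Ideal (𝓞 K)) : ℝ) ^ s : ℝ) : ℂ) =
      ((torsionOrder K : ℂ) * lTerm χ s (J : Ideal (𝓞 K)))⁻¹ := by
    rw [lTerm, mul_inv, mul_inv, Real.rpow_neg hpos.le, Complex.ofReal_inv, inv_inv, mul_assoc]
  rw [hinv, ← mul_assoc, inv_mul_cancel₀ hne, one_mul]

theorem exists_norm_tsum_lTerm_le {m : Ideal (𝓞 K)} {χ : Ideal (𝓞 K) →* ℂ}
    (hχ : IsRayChar m χ) (hm : m ≠ ⊥)
    (hne : ∃ I : Ideal (𝓞 K), I ≠ ⊥ ∧ I ⊔ m = ⊤ ∧ χ I ≠ 1) :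
    ∃ C : ℝ, ∀ s : ℝ, 1 < s → s ≤ 2 → ‖∑' I, lTerm χ s I‖ ≤ C := by
  haveI := finite_quotient hm
  haveI : Fintype (𝓞 K ⧸ m) := Fintype.ofFinite _
  choose J hJc hJm using fun c : ClassGroup (𝓞 K) ↦ exists_rep_coprime hm c⁻¹
  set B := ∑ β : 𝓞 K ⧸ m, resVal χ hm β with hB
  have hJ0 : ∀ c, (J c : Ideal (𝓞 K)) ≠ ⊥ := fun c ↦ mem_nonZeroDivisors_iff_ne_zero.mp (J c).2
  have hJnorm : ∀ c, ‖χ (J c)‖ = 1 := fun c ↦ hχ.norm_eq_one _ (hJ0 c) (hJm c)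
  have hJne : ∀ c, χ (J c : Ideal (𝓞 K)) ≠ 0 := fun c h ↦ by simpa [h] using hJnorm c
  -- orthogonality
  have hcancel : B * ∑ c, (χ (J c : Ideal (𝓞 K)))⁻¹ = 0 :=
    sum_resVal_mul_sum_inv_eq_zero hχ hm hne J hJc hJm
  -- a common refinement
  set P : Ideal (𝓞 K) := m * ∏ c, (J c : Ideal (𝓞 K)) with hPdef
  have hP : P ≠ ⊥ := mul_ne_zero hm (Finset.prod_ne_zero_iff.mpr fun c _ ↦ hJ0 c)
  have hPm : P ≤ m := Ideal.mul_le_left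
  have hPJ : ∀ c, P ≤ (J c : Ideal (𝓞 K)) := fun c ↦ by
    have h1 : ∏ c, (J c : Ideal (𝓞 K)) ≤ (J c : Ideal (𝓞 K)) :=
      Ideal.prod_le_inf.trans (Finset.inf_le (Finset.mem_univ c))
    exact le_trans Ideal.mul_le_right h1
  choose E hE using fun c ↦ exists_coset_decomposition hχ hm hP (hPJ c) hPm (hJm c)
  obtain ⟨M, hM⟩ := exists_sub_one_mul_tsum_gInt_le (K := K)
  set ω : ℂ := (torsionOrder K : ℂ) with hω
  have hω0 : ω ≠ 0 := Nat.cast_ne_zero.mpr (torsionOrder_pos K).ne'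
  set A : ℂ := (Ideal.absNorm P : ℂ) / ((Ideal.absNorm m : ℂ) * ω) * B with hA
  refine ⟨‖A‖ * M * (∑ c, Real.log (Ideal.absNorm (J c : Ideal (𝓞 K))) *
      Ideal.absNorm (J c : Ideal (𝓞 K))) +
    ∑ c, (torsionOrder K : ℝ)⁻¹ * (Ideal.absNorm (J c : Ideal (𝓞 K)) : ℝ) ^ (2 : ℝ) * E c,
    fun s hs hs' ↦ ?_⟩
  have hψ : ∀ I : Ideal (𝓞 K), I ≠ ⊥ → ‖χ I‖ ≤ 1 := fun I hI ↦ norm_apply_le_one hχ hI
  set Z : ℝ := ∑' x : P, gInt s (x : 𝓞 K) with hZ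
  set n : ClassGroup (𝓞 K) → ℝ := fun c ↦ (Ideal.absNorm (J c : Ideal (𝓞 K)) : ℝ) with hn
  have hn1 : ∀ c, 1 ≤ n c := fun c ↦ by
    simp only [n]
    exact_mod_cast Nat.pos_of_ne_zero (Ideal.absNorm_eq_zero_iff.not.mpr (hJ0 c))
  set S : ClassGroup (𝓞 K) → ℂ := fun c ↦
    ∑' x : (J c : Ideal (𝓞 K)), χ (Ideal.span {(x : 𝓞 K)}) * (gInt s (x : 𝓞 K) : ℂ) with hS
  set D : ClassGroup (𝓞 K) → ℂ := fun c ↦
    ω⁻¹ * (χ (J c : Ideal (𝓞 K)))⁻¹ * ((n c ^ s : ℝ) : ℂ) with hD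
  have hLc : ∀ c, ∑' I : InClass c, lTerm χ s I.1 = D c * S c := fun c ↦
    tsum_inClass_eq hψ hs (J c) (hJc c) (hJne c)
  have hDq : ∀ c, D c * ((Ideal.absNorm P : ℂ) /
      ((Ideal.absNorm (J c : Ideal (𝓞 K)) : ℂ) * (Ideal.absNorm m : ℂ)) * B * (Z : ℂ)) =
      A * (Z : ℂ) * ((χ (J c : Ideal (𝓞 K)))⁻¹ * ((n c ^ (s - 1) : ℝ) : ℂ)) := by
    intro c
    have hn0 : (n c : ℂ) ≠ 0 :=
      Complex.ofReal_ne_zero.mpr (lt_of_lt_of_le one_pos (hn1 c)).ne'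
    have h1 : ((n c ^ (s - 1) : ℝ) : ℂ) = ((n c ^ s : ℝ) : ℂ) / (n c : ℂ) := by
      rw [Real.rpow_sub_one (lt_of_lt_of_le one_pos (hn1 c)).ne', Complex.ofReal_div]
    have h2 : (Ideal.absNorm (J c : Ideal (𝓞 K)) : ℂ) = (n c : ℂ) := by simp [n]
    have hNm : (Ideal.absNorm m : ℂ) ≠ 0 :=
      Nat.cast_ne_zero.mpr (Ideal.absNorm_eq_zero_iff.not.mpr hm)
    rw [h1, h2, hA]
    simp only [D]
    field_simp
  have hmain : (∑' I, lTerm χ s I) =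
      A * (Z : ℂ) * ∑ c, (χ (J c : Ideal (𝓞 K)))⁻¹ * (((n c ^ (s - 1) - 1 : ℝ)) : ℂ) +
      ∑ c, D c * (S c - (Ideal.absNorm P : ℂ) /
        ((Ideal.absNorm (J c : Ideal (𝓞 K)) : ℂ) * (Ideal.absNorm m : ℂ)) * B * (Z : ℂ)) := by
    have hsplit : ∑ c, (χ (J c : Ideal (𝓞 K)))⁻¹ * (((n c ^ (s - 1) - 1 : ℝ)) : ℂ) =
        (∑ c, (χ (J c : Ideal (𝓞 K)))⁻¹ * ((n c ^ (s - 1) : ℝ) : ℂ)) -
          ∑ c, (χ (J c : Ideal (𝓞 K)))⁻¹ := by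
      rw [← Finset.sum_sub_distrib]
      exact Finset.sum_congr rfl fun c _ ↦ by push_cast; ring
    have hAB : A * ∑ c, (χ (J c : Ideal (𝓞 K)))⁻¹ = 0 := by
      rw [hA, mul_assoc, hcancel, mul_zero]
    rw [hasSum_classes hψ hs]
    simp only [hLc, mul_sub, Finset.sum_sub_distrib, hDq, hsplit, ← Finset.mul_sum]
    rw [mul_right_comm A (Z : ℂ) (∑ c, (χ (J c : Ideal (𝓞 K)))⁻¹), hAB, zero_mul]
    ring
  rw [hmain]
  refine (norm_add_le _ _).trans (add_le_add ?_ ((norm_sum_le _ _).trans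
    (Finset.sum_le_sum fun c _ ↦ ?_)))
  · have hZ0 : 0 ≤ Z := tsum_nonneg fun x ↦ gInt_nonneg _ _
    have hZM : (s - 1) * Z ≤ M := le_trans (mul_le_mul_of_nonneg_left
      (tsum_comp_le_tsum_of_inj (summable_gInt hs) (gInt_nonneg s) Subtype.val_injective)
      (by linarith)) (hM s hs hs')
    rw [norm_mul, norm_mul, Complex.norm_real, Real.norm_eq_abs, abs_of_nonneg hZ0, mul_assoc,
      mul_assoc]
    refine mul_le_mul_of_nonneg_left ?_ (_root_.norm_nonneg _)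
    have hlog0 : 0 ≤ ∑ c, Real.log (n c) * n c := Finset.sum_nonneg fun c _ ↦
      mul_nonneg (Real.log_nonneg (hn1 c)) (by linarith [hn1 c])
    calc Z * ‖∑ c, (χ (J c : Ideal (𝓞 K)))⁻¹ * (((n c ^ (s - 1) - 1 : ℝ)) : ℂ)‖
        ≤ Z * ∑ c, (s - 1) * (Real.log (n c) * n c) := by
          refine mul_le_mul_of_nonneg_left ((norm_sum_le _ _).trans
            (Finset.sum_le_sum fun c _ ↦ ?_)) hZ0
          rw [norm_mul, norm_inv, hJnorm, inv_one, one_mul, Complex.norm_real, Real.norm_eq_abs]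
          exact abs_rpow_sub_one_le (hn1 c) (by linarith) (by linarith)
      _ = ((s - 1) * Z) * ∑ c, Real.log (n c) * n c := by rw [← Finset.mul_sum]; ring
      _ ≤ M * ∑ c, Real.log (n c) * n c := mul_le_mul_of_nonneg_right hZM hlog0
  · rw [norm_mul]
    refine mul_le_mul ?_ (hE c s hs hs') (_root_.norm_nonneg _) (by positivity)
    simp only [D, norm_mul, norm_inv, hJnorm, inv_one, mul_one, Complex.norm_real,
      Real.norm_eq_abs, hω, Complex.norm_natCast]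
    refine mul_le_mul_of_nonneg_left ?_ (by positivity)
    rw [abs_of_nonneg (Real.rpow_nonneg (by linarith [hn1 c]) _)]
    exact Real.rpow_le_rpow_of_exponent_le (hn1 c) hs'

end Fermat.Agent.ClassField.Analytic
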