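import Mathlib.Topology.Algebra.InfiniteSum.Basic
import Mathlib.Analysis.Normed.Group.InfiniteSum
import Mathlib.Data.Real.Basic
import Mathlib.Algebra.Order.Floor.Ring
import Mathlib.Data.Int.Interval

/-!
# A partition of unity on `ℝ^r` for the translations by `ℤ^r`
-/

noncomputable section

namespace Fermat.Agent.ClassField.Analytic

/-- The tent function. -/
def tent (t : ℝ) : ℝ := max 0 (1 - |t|)

lemma tent_nonneg (t : ℝ) : 0 ≤ tent t := le_max_left _ _

lemma tent_le_one (t : ℝ) : tent t ≤ 1 := max_le zero_le_one (by linarith [abs_nonneg t])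

lemma abs_lt_one_of_tent_ne_zero {t : ℝ} (h : tent t ≠ 0) : |t| < 1 := by
  by_contra hc
  exact h (max_eq_left (by linarith))

lemma abs_tent_sub_tent_le (a b : ℝ) : |tent a - tent b| ≤ |a - b| := by
  have h1 : |(1 - |a|) - (1 - |b|)| ≤ |a - b| := by
    rw [show (1 - |a|) - (1 - |b|) = -(|a| - |b|) by ring, abs_neg]
    exact abs_abs_sub_abs_le_abs_sub a b
  refine le_trans ?_ h1
  simpa [tent, max_comm] using abs_max_sub_max_le_abs (1 - |a|) (1 - |b|) 0

/-- The two integers near `-t`. -/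
def tentSupport (t : ℝ) : Finset ℤ := {⌊-t⌋, ⌊-t⌋ + 1}

lemma tent_eq_zero_of_not_mem {t : ℝ} {n : ℤ} (h : n ∉ tentSupport t) : tent (n + t) = 0 := by
  by_contra hc
  obtain ⟨h1, h2⟩ := abs_lt.mp (abs_lt_one_of_tent_ne_zero hc)
  have h3 := Int.floor_le (-t)
  have h4 := Int.lt_floor_add_one (-t)
  have h5 : n < ⌊-t⌋ + 2 := by
    have : (n : ℝ) < ((⌊-t⌋ + 2 : ℤ) : ℝ) := by push_cast; linarith
    exact_mod_cast this
  have h6 : ⌊-t⌋ - 1 < n := by
    have : ((⌊-t⌋ - 1 : ℤ) : ℝ) < n := by push_cast; linarith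
    exact_mod_cast this
  apply h
  simp only [tentSupport, Finset.mem_insert, Finset.mem_singleton]
  omega

lemma sum_tentSupport (t : ℝ) : ∑ n ∈ tentSupport t, tent (n + t) = 1 := by
  have h3 := Int.floor_le (-t)
  have h4 := Int.lt_floor_add_one (-t)
  rw [tentSupport, Finset.sum_pair (by omega), tent, tent, Int.cast_add, Int.cast_one,
    abs_of_nonpos (by linarith), abs_of_nonneg (by linarith),
    max_eq_right (by linarith), max_eq_right (by linarith)]
  ring

variable {ι : Type*} [Fintype ι]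

/-- The product tent function. -/
def multiTent (t : ι → ℝ) : ℝ := ∏ i, tent (t i)

lemma multiTent_nonneg (t : ι → ℝ) : 0 ≤ multiTent t := Finset.prod_nonneg fun _ _ ↦ tent_nonneg _

lemma multiTent_le_one (t : ι → ℝ) : multiTent t ≤ 1 :=
  Finset.prod_le_one (fun _ _ ↦ tent_nonneg _) fun _ _ ↦ tent_le_one _

lemma abs_lt_one_of_multiTent_ne_zero {t : ι → ℝ} (h : multiTent t ≠ 0) (i : ι) : |t i| < 1 :=
  abs_lt_one_of_tent_ne_zero fun hi ↦ h (Finset.prod_eq_zero (Finset.mem_univ i) hi)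

lemma abs_multiTent_sub_le (a b : ι → ℝ) :
    |multiTent a - multiTent b| ≤ ∑ i, |a i - b i| := by
  classical
  suffices h : ∀ s : Finset ι, |(∏ i ∈ s, tent (a i)) - ∏ i ∈ s, tent (b i)| ≤
      ∑ i ∈ s, |a i - b i| from h Finset.univ
  intro s
  induction s using Finset.induction with
  | empty => simp
  | insert j s hj ih =>
    rw [Finset.prod_insert hj, Finset.prod_insert hj, Finset.sum_insert hj]
    have hA0 : 0 ≤ ∏ i ∈ s, tent (a i) := Finset.prod_nonneg fun _ _ ↦ tent_nonneg _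
    have hA1 : ∏ i ∈ s, tent (a i) ≤ 1 :=
      Finset.prod_le_one (fun _ _ ↦ tent_nonneg _) fun _ _ ↦ tent_le_one _
    calc |tent (a j) * ∏ i ∈ s, tent (a i) - tent (b j) * ∏ i ∈ s, tent (b i)|
        = |(tent (a j) - tent (b j)) * ∏ i ∈ s, tent (a i) +
            tent (b j) * (∏ i ∈ s, tent (a i) - ∏ i ∈ s, tent (b i))| := by ring_nf
      _ ≤ |tent (a j) - tent (b j)| * 1 +
            1 * |∏ i ∈ s, tent (a i) - ∏ i ∈ s, tent (b i)| := by
          refine (abs_add_le _ _).trans (add_le_add ?_ ?_)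
          · rw [abs_mul, abs_of_nonneg hA0]
            exact mul_le_mul_of_nonneg_left hA1 (abs_nonneg _)
          · rw [abs_mul, abs_of_nonneg (tent_nonneg _)]
            exact mul_le_mul_of_nonneg_right (tent_le_one _) (abs_nonneg _)
      _ ≤ _ := by
          rw [mul_one, one_mul]
          exact add_le_add (abs_tent_sub_tent_le _ _) ih

lemma hasSum_multiTent (t : ι → ℝ) :
    HasSum (fun n : ι → ℤ ↦ multiTent fun i ↦ (n i : ℝ) + t i) 1 := by
  classical
  have h1 : ∑ n ∈ Fintype.piFinset (fun i ↦ tentSupport (t i)),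
      multiTent (fun i ↦ (n i : ℝ) + t i) = 1 := by
    simp only [multiTent]
    rw [← Finset.prod_univ_sum (fun i ↦ tentSupport (t i))
      (fun i (n : ℤ) ↦ tent ((n : ℝ) + t i))]
    simp [sum_tentSupport]
  have h2 : HasSum (fun n : ι → ℤ ↦ multiTent fun i ↦ (n i : ℝ) + t i)
      (∑ n ∈ Fintype.piFinset (fun i ↦ tentSupport (t i)),
        multiTent (fun i ↦ (n i : ℝ) + t i)) := by
    refine hasSum_sum_of_ne_finset_zero fun n hn ↦ ?_
    rw [Fintype.mem_piFinset, not_forall] at hn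
    obtain ⟨i, hi⟩ := hn
    exact Finset.prod_eq_zero (Finset.mem_univ i) (tent_eq_zero_of_not_mem hi)
  rwa [h1] at h2

end Fermat.Agent.ClassField.Analytic
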