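import Mathlib.NumberTheory.NumberField.CanonicalEmbedding.FundamentalCone
import Mathlib.Analysis.SpecialFunctions.Pow.Real
import Fermat.Agent.ClassField.Analytic.Tent

/-!
# A partition of unity for the action of the units on the mixed space

`wf x = multiTent (coordinates of logMap x in the unit lattice)` satisfies `∑_u wf (u • x) = ω`,
the number of roots of unity, and is supported in a cone on which all absolute values are
comparable to `‖x‖`; hence `ft s x = wf x * N(x)^(-s)` varies slowly.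
-/

noncomputable section

open NumberField NumberField.mixedEmbedding NumberField.Units
  NumberField.Units.dirichletUnitTheorem Module NumberField.InfinitePlace

open scoped Classical

namespace Fermat.Agent.ClassField.Analytic

variable (K : Type*) [Field K] [NumberField K]

/-- Coordinates with respect to the unit lattice. -/
def coordMap : logSpace K ≃L[ℝ] (Fin (rank K) → ℝ) :=
  ((basisUnitLattice K).ofZLatticeBasis ℝ (unitLattice K)).equivFunL

variable {K}

lemma coordMap_logEmbedding (ζ : torsion K) (n : Fin (rank K) → ℤ) :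
    coordMap K (logEmbedding K (Additive.ofMul ((ζ : (𝓞 K)ˣ) * ∏ i, fundSystem K i ^ n i))) =
      fun i ↦ (n i : ℝ) := by
  set v : (𝓞 K)ˣ := (ζ : (𝓞 K)ˣ) * ∏ i, fundSystem K i ^ n i with hv
  have h1 : logEmbedding K (Additive.ofMul v) =
      ∑ i, n i • ((basisUnitLattice K i : unitLattice K) : logSpace K) := by
    rw [hv, ofMul_mul, map_add, logEmbedding_eq_zero_iff.mpr ζ.2, zero_add, ofMul_prod, map_sum]
    refine Finset.sum_congr rfl fun i _ ↦ ?_
    rw [ofMul_zpow, map_zsmul, logEmbedding_fundSystem]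
  have h2 : logEmbedding K (Additive.ofMul v) =
      ((∑ i, n i • basisUnitLattice K i : unitLattice K) : logSpace K) := by
    rw [h1, Submodule.coe_sum]
    rfl
  rw [h2]
  ext i
  rw [coordMap, Module.Basis.equivFunL_apply, Module.Basis.ofZLatticeBasis_repr_apply,
    Basis.repr_sum_self]

/-- The weight. -/
def wf (x : mixedSpace K) : ℝ := multiTent (coordMap K (logMap x))

/-- The weighted power of the norm. -/
def ft (s : ℝ) (x : mixedSpace K) : ℝ := wf x * mixedEmbedding.norm x ^ (-s)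

lemma wf_nonneg (x : mixedSpace K) : 0 ≤ wf x := multiTent_nonneg _

lemma wf_le_one (x : mixedSpace K) : wf x ≤ 1 := multiTent_le_one _

lemma ft_nonneg (s : ℝ) (x : mixedSpace K) : 0 ≤ ft s x :=
  mul_nonneg (wf_nonneg x) (Real.rpow_nonneg (mixedEmbedding.norm_nonneg x) _)

lemma ft_eq_zero_of_norm_eq_zero {s : ℝ} (hs : s ≠ 0) {x : mixedSpace K}
    (hx : mixedEmbedding.norm x = 0) : ft s x = 0 := by
  rw [ft, hx, Real.zero_rpow (neg_ne_zero.mpr hs), mul_zero]

lemma ft_le {s : ℝ} (hs : 1 ≤ s) (hs' : s ≤ 2) (x : mixedSpace K) :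
    ft s x ≤ mixedEmbedding.norm x ^ (-1 : ℝ) + mixedEmbedding.norm x ^ (-2 : ℝ) := by
  have hN := mixedEmbedding.norm_nonneg x
  refine le_trans (mul_le_of_le_one_left (Real.rpow_nonneg hN _) (wf_le_one x)) ?_
  rcases hN.eq_or_lt with h | h
  · simp [← h, Real.zero_rpow (neg_ne_zero.mpr (show s ≠ 0 by linarith))]
  · rcases le_total 1 (mixedEmbedding.norm x) with h1 | h1
    · exact le_add_of_le_of_nonneg (Real.rpow_le_rpow_of_exponent_le h1 (by linarith))
        (Real.rpow_nonneg hN _)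
    · exact le_add_of_nonneg_of_le (Real.rpow_nonneg hN _)
        (Real.rpow_le_rpow_of_exponent_ge h h1 (by linarith))

/-- Decomposition of the units as torsion times `ℤ^r`. -/
def unitsEquiv : torsion K × (Fin (rank K) → ℤ) ≃ (𝓞 K)ˣ :=
  Equiv.ofBijective (fun ζe ↦ (ζe.1 : (𝓞 K)ˣ) * ∏ i, fundSystem K i ^ ζe.2 i)
    (Function.bijective_iff_existsUnique _ |>.mpr fun v ↦ by
      obtain ⟨w, hw, huniq⟩ := exist_unique_eq_mul_prod K v
      exact ⟨w, hw.symm, fun y hy ↦ huniq y hy.symm⟩)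

theorem hasSum_wf {x : mixedSpace K} (hx : mixedEmbedding.norm x ≠ 0) :
    HasSum (fun v : (𝓞 K)ˣ ↦ wf (v • x)) (torsionOrder K) := by
  classical
  rw [← (unitsEquiv (K := K)).hasSum_iff]
  have key : ∀ p : torsion K × (Fin (rank K) → ℤ), wf (unitsEquiv p • x) =
      multiTent fun i ↦ (p.2 i : ℝ) + coordMap K (logMap x) i := by
    intro p
    rw [wf, logMap_unit_smul _ hx, map_add]
    congr 1
    ext i
    rw [Pi.add_apply]
    congr 1
    exact congrFun (coordMap_logEmbedding p.1 p.2) i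
  refine HasSum.congr_fun ?_ (fun p ↦ key p)
  have h := hasSum_multiTent (coordMap K (logMap x))
  have hsum : Summable fun p : torsion K × (Fin (rank K) → ℤ) ↦
      multiTent fun i ↦ (p.2 i : ℝ) + coordMap K (logMap x) i := by
    refine (summable_prod_of_nonneg (fun p ↦ multiTent_nonneg _)).mpr ⟨fun _ ↦ h.summable, ?_⟩
    exact Summable.of_finite
  haveI : Fintype (torsion K) := Fintype.ofFinite _
  have h2 : ∑' p : torsion K × (Fin (rank K) → ℤ),
      multiTent (fun i ↦ (p.2 i : ℝ) + coordMap K (logMap x) i) = (torsionOrder K : ℝ) := by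
    rw [hsum.tsum_prod' fun _ ↦ h.summable]
    simp only [h.tsum_eq]
    rw [tsum_fintype, Finset.sum_const, Finset.card_univ, nsmul_eq_mul, mul_one, torsionOrder,
      Nat.card_eq_fintype_card]
  exact h2 ▸ hsum.hasSum

theorem hasSum_ft {x : mixedSpace K} (hx : mixedEmbedding.norm x ≠ 0) (s : ℝ) :
    HasSum (fun v : (𝓞 K)ˣ ↦ ft s (v • x))
      (torsionOrder K * mixedEmbedding.norm x ^ (-s)) := by
  simp only [ft, norm_unit_smul]
  exact (hasSum_wf hx).mul_right _

/-- Comparability constant of the absolute values on the support of `wf`. -/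
theorem exists_coneConst :
    ∃ c : ℝ, 0 < c ∧ c ≤ 1 ∧ ∀ x : mixedSpace K, mixedEmbedding.norm x ≠ 0 → wf x ≠ 0 →
      ∀ w, c * ‖x‖ ≤ normAtPlace w x := by
  classical
  set Q : ℝ := ‖((coordMap K).symm : (Fin (rank K) → ℝ) →L[ℝ] logSpace K)‖ with hQ
  have hQ0 : 0 ≤ Q := _root_.norm_nonneg _
  set Q' : ℝ := Fintype.card (InfinitePlace K) * Q with hQ'
  have hQQ' : Q ≤ Q' :=
    le_mul_of_one_le_left hQ0 (by exact_mod_cast Fintype.card_pos (α := InfinitePlace K))
  refine ⟨Real.exp (-(2 * Q')), Real.exp_pos _,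
    Real.exp_le_one_iff.mpr (by linarith), fun x hx hw ↦ ?_⟩
  set L : ℝ := Real.log (mixedEmbedding.norm x) * (finrank ℚ K : ℝ)⁻¹ with hL
  have hlog : ‖logMap x‖ ≤ Q := by
    have h1 : ‖coordMap K (logMap x)‖ ≤ 1 :=
      (pi_norm_le_iff_of_nonneg zero_le_one).mpr fun i ↦
        (abs_lt_one_of_multiTent_ne_zero hw i).le
    calc ‖logMap x‖ = ‖((coordMap K).symm : (Fin (rank K) → ℝ) →L[ℝ] logSpace K)
          (coordMap K (logMap x))‖ := by simp
      _ ≤ Q * ‖coordMap K (logMap x)‖ := ContinuousLinearMap.le_opNorm _ _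
      _ ≤ Q := mul_le_of_le_one_right hQ0 h1
  have hne : ∀ w, w ≠ w₀ → |(mult w : ℝ) * (Real.log (normAtPlace w x) - L)| ≤ Q := by
    intro w hw'
    have := (norm_le_pi_norm (logMap x) ⟨w, hw'⟩).trans hlog
    rwa [logMap_apply, Real.norm_eq_abs] at this
  have htot : ∑ w, (mult w : ℝ) * (Real.log (normAtPlace w x) - L) = 0 := by
    simp only [mul_sub, Finset.sum_sub_distrib, ← Finset.sum_mul]
    have h1 : ∑ w, (mult w : ℝ) * Real.log (normAtPlace w x) =
        Real.log (mixedEmbedding.norm x) := by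
      rw [mixedEmbedding.norm_apply, Real.log_prod
        (fun w _ ↦ pow_ne_zero _ (mixedEmbedding.norm_ne_zero_iff.mp hx w))]
      simp [Real.log_pow]
    rw [h1, ← Nat.cast_sum, sum_mult_eq, hL]
    have : (finrank ℚ K : ℝ) ≠ 0 := Nat.cast_ne_zero.mpr finrank_pos.ne'
    field_simp
    ring
  have hall : ∀ w, |Real.log (normAtPlace w x) - L| ≤ Q' := by
    intro w
    have hm : (1 : ℝ) ≤ mult w := by exact_mod_cast (mult_pos (w := w))
    have h : |(mult w : ℝ) * (Real.log (normAtPlace w x) - L)| ≤ Q' := by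
      by_cases hw' : w = w₀
      · subst hw'
        rw [← Finset.add_sum_erase _ _ (Finset.mem_univ (w₀ : InfinitePlace K))] at htot
        rw [eq_neg_of_add_eq_zero_left htot, abs_neg]
        refine (Finset.abs_sum_le_sum_abs _ _).trans ?_
        refine (Finset.sum_le_card_nsmul _ _ Q fun v hv ↦ hne v (Finset.ne_of_mem_erase hv)).trans ?_
        rw [nsmul_eq_mul, hQ']
        exact mul_le_mul_of_nonneg_right (by exact_mod_cast Finset.card_le_univ _) hQ0
      · exact (hne w hw').trans hQQ'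
    rw [abs_mul, abs_of_nonneg (by linarith : (0 : ℝ) ≤ mult w)] at h
    exact le_trans (le_mul_of_one_le_left (abs_nonneg _) hm) h
  intro w
  have hpos : ∀ v, 0 < normAtPlace v x := fun v ↦
    (normAtPlace_nonneg v x).lt_of_ne (mixedEmbedding.norm_ne_zero_iff.mp hx v).symm
  have hle : ‖x‖ ≤ Real.exp (L + Q') := by
    rw [norm_eq_sup'_normAtPlace]
    refine Finset.sup'_le _ _ fun v _ ↦ ?_
    rw [← Real.exp_log (hpos v)]
    exact Real.exp_le_exp.mpr (by linarith [abs_le.mp (hall v)])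
  calc Real.exp (-(2 * Q')) * ‖x‖ ≤ Real.exp (-(2 * Q')) * Real.exp (L + Q') :=
        mul_le_mul_of_nonneg_left hle (Real.exp_pos _).le
    _ ≤ normAtPlace w x := by
        rw [← Real.exp_add, ← Real.exp_log (hpos w)]
        exact Real.exp_le_exp.mpr (by linarith [abs_le.mp (hall w)])

lemma abs_log_sub_log_le {a b δ : ℝ} (ha : 0 < a) (hδ : δ ≤ 1 / 2) (h : |b - a| ≤ δ * a) :
    |Real.log b - Real.log a| ≤ 2 * δ := by
  obtain ⟨h1, h2⟩ := abs_le.mp h
  have hδ0 : 0 ≤ δ := nonneg_of_mul_nonneg_left (le_trans (abs_nonneg _) h) ha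
  have hb : a / 2 ≤ b := by nlinarith
  have hb0 : 0 < b := by linarith
  rw [← Real.log_div hb0.ne' ha.ne', abs_le]
  refine ⟨?_, ?_⟩
  · have h3 := Real.one_sub_inv_le_log_of_pos (div_pos hb0 ha)
    rw [inv_div] at h3
    have h4 : a / b ≤ 1 + 2 * δ := by rw [div_le_iff₀ hb0]; nlinarith
    linarith
  · have h3 := Real.log_le_sub_one_of_pos (div_pos hb0 ha)
    have h4 : b / a ≤ 1 + δ := by rw [div_le_iff₀ ha]; nlinarith
    linarith

lemma abs_normAtPlace_sub_le (w : InfinitePlace K) (x y : mixedSpace K) :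
    |normAtPlace w y - normAtPlace w x| ≤ ‖y - x‖ := by
  have hle : ∀ z : mixedSpace K, normAtPlace w z ≤ ‖z‖ := fun z ↦ by
    rw [norm_eq_sup'_normAtPlace]
    exact Finset.le_sup' (fun v ↦ normAtPlace v z) (Finset.mem_univ w)
  have h1 := normAtPlace_add_le w x (y - x)
  have h2 := normAtPlace_add_le w y (x - y)
  rw [add_sub_cancel] at h1 h2
  have h3 := hle (x - y)
  rw [norm_sub_rev] at h3
  rw [abs_le]
  constructor <;> linarith [hle (y - x)]

variable (K) in
/-- Translating by a bounded vector changes `ft` by `O(‖x‖^{-(d+1)})` on the cone. -/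
theorem exists_abs_ft_sub_le_of_wf_ne_zero :
    ∃ c C : ℝ, 0 < c ∧ 0 ≤ C ∧ ∀ x h : mixedSpace K, mixedEmbedding.norm x ≠ 0 → wf x ≠ 0 →
      2 * ‖h‖ ≤ c * ‖x‖ → 1 ≤ c * ‖x‖ → ∀ s : ℝ, 1 ≤ s → s ≤ 2 →
        |ft s (x + h) - ft s x| ≤ C * ‖h‖ * (‖x‖⁻¹) ^ (finrank ℚ K + 1) := by
  classical
  obtain ⟨c, hc0, hc1, hc⟩ := exists_coneConst (K := K)
  set d : ℝ := (finrank ℚ K : ℝ) with hd
  have hd0 : 0 < d := Nat.cast_pos.mpr finrank_pos
  set A : ℝ := ‖(coordMap K : logSpace K →L[ℝ] (Fin (rank K) → ℝ))‖ with hA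
  set D : ℝ := rank K * A * 8 + Real.exp (2 * d) * 4 * d with hD
  have hD0 : 0 ≤ D := by
    have : 0 ≤ A := _root_.norm_nonneg _
    positivity
  refine ⟨c, D * c⁻¹ ^ (finrank ℚ K + 1), hc0, by positivity,
    fun x h hx hw hh hlarge s hs hs' ↦ ?_⟩
  set y := x + h with hy
  have hxpos : 0 < ‖x‖ := by
    by_contra hcon
    have : ‖x‖ = 0 := le_antisymm (not_lt.mp hcon) (_root_.norm_nonneg _)
    rw [this, mul_zero] at hlarge
    linarith
  set δ : ℝ := ‖h‖ / (c * ‖x‖) with hδdef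
  have hcx : 0 < c * ‖x‖ := mul_pos hc0 hxpos
  have hδ0 : 0 ≤ δ := div_nonneg (_root_.norm_nonneg _) hcx.le
  have hδ : δ ≤ 1 / 2 := by rw [hδdef, div_le_iff₀ hcx]; linarith
  have hwpos : ∀ w, 0 < normAtPlace w x := fun w ↦ lt_of_lt_of_le hcx (hc x hx hw w)
  have hdiff : ∀ w, |normAtPlace w y - normAtPlace w x| ≤ δ * normAtPlace w x := by
    intro w
    refine (abs_normAtPlace_sub_le w x y).trans ?_
    rw [hy, add_sub_cancel_left, hδdef, div_mul_eq_mul_div, le_div_iff₀ hcx]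
    exact mul_le_mul_of_nonneg_left (hc x hx hw w) (_root_.norm_nonneg _)
  have hypos : ∀ w, 0 < normAtPlace w y := fun w ↦ by
    have h1 := (abs_le.mp (hdiff w)).1
    nlinarith [hwpos w]
  have hlw : ∀ w, |Real.log (normAtPlace w y) - Real.log (normAtPlace w x)| ≤ 2 * δ :=
    fun w ↦ abs_log_sub_log_le (hwpos w) hδ (hdiff w)
  have hNy : mixedEmbedding.norm y ≠ 0 :=
    mixedEmbedding.norm_ne_zero_iff.mpr fun w ↦ (hypos w).ne'
  have hlN : |Real.log (mixedEmbedding.norm y) - Real.log (mixedEmbedding.norm x)| ≤ 2 * δ * d := by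
    rw [mixedEmbedding.norm_apply, mixedEmbedding.norm_apply,
      Real.log_prod (fun w _ ↦ pow_ne_zero _ (hypos w).ne'),
      Real.log_prod (fun w _ ↦ pow_ne_zero _ (hwpos w).ne'), ← Finset.sum_sub_distrib]
    calc |∑ w, (Real.log (normAtPlace w y ^ mult w) - Real.log (normAtPlace w x ^ mult w))|
        ≤ ∑ w, |Real.log (normAtPlace w y ^ mult w) - Real.log (normAtPlace w x ^ mult w)| :=
          Finset.abs_sum_le_sum_abs _ _
      _ ≤ ∑ w, (mult w : ℝ) * (2 * δ) := by
          refine Finset.sum_le_sum fun w _ ↦ ?_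
          rw [Real.log_pow, Real.log_pow, ← mul_sub, abs_mul, Nat.abs_cast]
          exact mul_le_mul_of_nonneg_left (hlw w) (Nat.cast_nonneg _)
      _ = 2 * δ * d := by
          rw [← Finset.sum_mul, ← Nat.cast_sum, sum_mult_eq, hd]; ring
  have hlm : ‖logMap y - logMap x‖ ≤ 8 * δ := by
    refine (pi_norm_le_iff_of_nonneg (by linarith)).mpr fun w ↦ ?_
    rw [Pi.sub_apply, logMap_apply, logMap_apply, Real.norm_eq_abs, ← mul_sub, abs_mul,
      Nat.abs_cast]
    have hm : (mult w.1 : ℝ) ≤ 2 := by exact_mod_cast (by rw [mult]; split_ifs <;> norm_num)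
    have h1 : |(Real.log (normAtPlace w.1 y) - Real.log (mixedEmbedding.norm y) * d⁻¹) -
        (Real.log (normAtPlace w.1 x) - Real.log (mixedEmbedding.norm x) * d⁻¹)| ≤ 4 * δ := by
      calc _ = |(Real.log (normAtPlace w.1 y) - Real.log (normAtPlace w.1 x)) -
            (Real.log (mixedEmbedding.norm y) - Real.log (mixedEmbedding.norm x)) * d⁻¹| := by
            ring_nf
        _ ≤ 2 * δ + 2 * δ * d * d⁻¹ := by
            refine (abs_sub _ _).trans (add_le_add (hlw _) ?_)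
            rw [abs_mul, abs_of_nonneg (inv_nonneg.mpr hd0.le)]
            exact mul_le_mul_of_nonneg_right hlN (inv_nonneg.mpr hd0.le)
        _ = 4 * δ := by rw [mul_assoc, mul_inv_cancel₀ hd0.ne']; ring
    calc (mult w.1 : ℝ) * _ ≤ 2 * (4 * δ) := mul_le_mul hm h1 (abs_nonneg _) (by norm_num)
      _ = 8 * δ := by ring
  have hW : |wf y - wf x| ≤ rank K * A * 8 * δ := by
    refine (abs_multiTent_sub_le _ _).trans ?_
    have h1 : ∀ i, |coordMap K (logMap y) i - coordMap K (logMap x) i| ≤ A * (8 * δ) := by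
      intro i
      rw [← Pi.sub_apply, ← map_sub, ← Real.norm_eq_abs]
      refine (norm_le_pi_norm _ i).trans (le_trans ?_
        (mul_le_mul_of_nonneg_left hlm (_root_.norm_nonneg _)))
      exact (coordMap K : logSpace K →L[ℝ] (Fin (rank K) → ℝ)).le_opNorm _
    calc _ ≤ ∑ _i : Fin (rank K), A * (8 * δ) := Finset.sum_le_sum fun i _ ↦ h1 i
      _ = _ := by simp; ring
  have hxN : 0 < mixedEmbedding.norm x :=
    (mixedEmbedding.norm_nonneg x).lt_of_ne hx.symm
  have hyN : 0 < mixedEmbedding.norm y :=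
    (mixedEmbedding.norm_nonneg y).lt_of_ne hNy.symm
  set a := -s * (Real.log (mixedEmbedding.norm y) - Real.log (mixedEmbedding.norm x)) with ha
  have hay : mixedEmbedding.norm y ^ (-s) = mixedEmbedding.norm x ^ (-s) * Real.exp a := by
    rw [Real.rpow_def_of_pos hyN, Real.rpow_def_of_pos hxN, ← Real.exp_add, ha]
    ring_nf
  have habs : |a| ≤ 4 * d * δ := by
    rw [ha, abs_mul, abs_neg, abs_of_nonneg (by linarith : (0 : ℝ) ≤ s)]
    calc s * _ ≤ 2 * (2 * δ * d) := mul_le_mul hs' hlN (abs_nonneg _) (by norm_num)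
      _ = 4 * d * δ := by ring
  have hexp : |Real.exp a - 1| ≤ Real.exp (2 * d) * 4 * d * δ := by
    have h1 : |Real.exp a - 1| ≤ Real.exp |a| * |a| := by
      rcases le_total 0 a with h0 | h0
      · rw [abs_of_nonneg h0, abs_of_nonneg (by linarith [Real.one_le_exp h0])]
        have := mul_le_mul_of_nonneg_left (Real.add_one_le_exp (-a)) (Real.exp_pos a).le
        rw [← Real.exp_add, add_neg_cancel, Real.exp_zero] at this
        linarith
      · rw [abs_of_nonpos h0, abs_of_nonpos (by linarith [Real.exp_le_one_iff.mpr h0])]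
        nlinarith [Real.add_one_le_exp a, Real.one_le_exp (neg_nonneg.mpr h0)]
    refine h1.trans ?_
    calc Real.exp |a| * |a| ≤ Real.exp (2 * d) * (4 * d * δ) := by
          refine mul_le_mul (Real.exp_le_exp.mpr (habs.trans ?_)) habs (abs_nonneg _)
            (Real.exp_pos _).le
          nlinarith
      _ = _ := by ring
  have hNbound : mixedEmbedding.norm x ^ (-s) ≤ (c * ‖x‖)⁻¹ ^ finrank ℚ K := by
    have hlow : (c * ‖x‖) ^ finrank ℚ K ≤ mixedEmbedding.norm x := by
      rw [mixedEmbedding.norm_apply, ← sum_mult_eq, ← Finset.prod_pow_eq_pow_sum]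
      exact Finset.prod_le_prod (fun w _ ↦ pow_nonneg hcx.le _) fun w _ ↦
        pow_le_pow_left₀ hcx.le (hc x hx hw w) _
    calc mixedEmbedding.norm x ^ (-s) ≤ mixedEmbedding.norm x ^ (-1 : ℝ) :=
          Real.rpow_le_rpow_of_exponent_le (le_trans (one_le_pow₀ hlarge) hlow) (by linarith)
      _ ≤ _ := by
          rw [Real.rpow_neg_one, inv_pow]
          exact inv_anti₀ (pow_pos hcx _) hlow
  have key : ft s y - ft s x =
      mixedEmbedding.norm x ^ (-s) * ((wf y - wf x) + wf y * (Real.exp a - 1)) := by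
    rw [ft, ft, hay]; ring
  calc |ft s y - ft s x|
      = mixedEmbedding.norm x ^ (-s) * |(wf y - wf x) + wf y * (Real.exp a - 1)| := by
        rw [key, abs_mul, abs_of_nonneg (Real.rpow_nonneg hxN.le _)]
    _ ≤ (c * ‖x‖)⁻¹ ^ finrank ℚ K *
          (rank K * A * 8 * δ + 1 * (Real.exp (2 * d) * 4 * d * δ)) := by
        refine mul_le_mul hNbound ((abs_add_le _ _).trans (add_le_add hW ?_)) (abs_nonneg _)
          (by positivity)
        rw [abs_mul, abs_of_nonneg (wf_nonneg _)]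
        exact mul_le_mul (wf_le_one _) hexp (abs_nonneg _) zero_le_one
    _ = D * c⁻¹ ^ (finrank ℚ K + 1) * ‖h‖ * ‖x‖⁻¹ ^ (finrank ℚ K + 1) := by
        rw [hD, hδdef, pow_succ, pow_succ, mul_inv, mul_pow]
        field_simp

variable (K) in
/-- Translating by a fixed vector changes `ft` by `O(‖x‖^{-(d+1)})`, uniformly for `s ∈ [1,2]`. -/
theorem exists_abs_ft_sub_le (h : mixedSpace K) :
    ∃ T C : ℝ, ∀ x : mixedSpace K, T ≤ ‖x‖ → ∀ s : ℝ, 1 ≤ s → s ≤ 2 →
      |ft s (x + h) - ft s x| ≤ C * (‖x‖⁻¹) ^ (finrank ℚ K + 1) := by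
  obtain ⟨c, C, hc, hC, hmain⟩ := exists_abs_ft_sub_le_of_wf_ne_zero K
  refine ⟨(4 * ‖h‖ + 2) / c + 2 * ‖h‖ + 1, C * ‖h‖ * 2 ^ (finrank ℚ K + 1),
    fun x hT s hs hs' ↦ ?_⟩
  have hh := _root_.norm_nonneg h
  have hdiv : 0 ≤ (4 * ‖h‖ + 2) / c := by positivity
  have hcx : 4 * ‖h‖ + 2 ≤ c * ‖x‖ := by
    have := (div_le_iff₀ hc).mp (show (4 * ‖h‖ + 2) / c ≤ ‖x‖ by linarith)
    linarith
  have hCnn : 0 ≤ C * ‖h‖ * ‖x‖⁻¹ ^ (finrank ℚ K + 1) := by positivity
  have h2 : (1 : ℝ) ≤ 2 ^ (finrank ℚ K + 1) := one_le_pow₀ one_le_two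
  have hs0 : s ≠ 0 := by linarith
  by_cases hx : mixedEmbedding.norm x ≠ 0 ∧ wf x ≠ 0
  · refine (hmain x h hx.1 hx.2 (by linarith) (by linarith) s hs hs').trans ?_
    calc C * ‖h‖ * ‖x‖⁻¹ ^ (finrank ℚ K + 1)
        ≤ C * ‖h‖ * ‖x‖⁻¹ ^ (finrank ℚ K + 1) * 2 ^ (finrank ℚ K + 1) :=
          le_mul_of_one_le_right hCnn h2
      _ = _ := by ring
  have hfx : ft s x = 0 := by
    by_cases h0 : mixedEmbedding.norm x = 0
    · exact ft_eq_zero_of_norm_eq_zero hs0 h0
    · rw [ft, not_ne_iff.mp (fun h1 ↦ hx ⟨h0, h1⟩), zero_mul]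
  by_cases hy : mixedEmbedding.norm (x + h) ≠ 0 ∧ wf (x + h) ≠ 0
  · have hylow : ‖x‖ / 2 ≤ ‖x + h‖ := by
      have h3 := norm_sub_le (x + h) h
      rw [add_sub_cancel_right] at h3
      linarith
    have hyc : 2 * ‖h‖ + 1 ≤ c * ‖x + h‖ := by
      have := mul_le_mul_of_nonneg_left hylow hc.le
      linarith
    have := hmain (x + h) (-h) hy.1 hy.2 (by rw [norm_neg]; linarith) (by linarith) s hs hs'
    rw [add_neg_cancel_right, norm_neg, hfx, zero_sub, abs_neg] at this
    rw [hfx, sub_zero]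
    refine this.trans ?_
    have hxpos : 0 < ‖x‖ := by linarith
    calc C * ‖h‖ * ‖x + h‖⁻¹ ^ (finrank ℚ K + 1)
        ≤ C * ‖h‖ * (2 * ‖x‖⁻¹) ^ (finrank ℚ K + 1) := by
          refine mul_le_mul_of_nonneg_left ?_ (mul_nonneg hC hh)
          refine pow_le_pow_left₀ (inv_nonneg.mpr (_root_.norm_nonneg _)) ?_ _
          rw [inv_eq_one_div, div_le_iff₀ (by linarith)]
          calc (1 : ℝ) = 2 * ‖x‖⁻¹ * (‖x‖ / 2) := by field_simp
            _ ≤ _ := mul_le_mul_of_nonneg_left hylow (by positivity)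
      _ = _ := by rw [mul_pow]; ring
  · have hfy : ft s (x + h) = 0 := by
      by_cases h0 : mixedEmbedding.norm (x + h) = 0
      · exact ft_eq_zero_of_norm_eq_zero hs0 h0
      · rw [ft, not_ne_iff.mp (fun h1 ↦ hy ⟨h0, h1⟩), zero_mul]
    rw [hfx, hfy, sub_zero, abs_zero]
    positivity

end Fermat.Agent.ClassField.Analytic
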