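import Mathlib.Algebra.Module.ZLattice.Summable
import Fermat.Agent.ClassField.Analytic.Weight

/-!
# Sums of the weight function over the image of the ring of integers
-/

noncomputable section

open NumberField NumberField.mixedEmbedding Module NumberField.Units
open scoped Classical

namespace Fermat.Agent.ClassField.Analytic

variable {K : Type*} [Field K] [NumberField K]

/-- The image of an algebraic integer in the mixed space. -/
def intEmb : 𝓞 K →+* mixedSpace K := (mixedEmbedding K).comp (algebraMap (𝓞 K) K)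

lemma intEmb_injective : Function.Injective (intEmb (K := K)) :=
  (mixedEmbedding_injective K).comp RingOfIntegers.coe_injective

/-- The weighted term at an algebraic integer. -/
def gInt (s : ℝ) (x : 𝓞 K) : ℝ := ft s (intEmb x)

lemma gInt_nonneg (s : ℝ) (x : 𝓞 K) : 0 ≤ gInt s x := ft_nonneg _ _

lemma norm_intEmb (x : 𝓞 K) :
    mixedEmbedding.norm (intEmb x) = (Ideal.absNorm (Ideal.span {x}) : ℝ) := by
  rw [intEmb, RingHom.comp_apply, norm_eq_norm, Ideal.absNorm_span_singleton, Nat.cast_natAbs,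
    Int.cast_abs, ← Algebra.coe_norm_int, Rat.cast_abs, Rat.cast_intCast]

lemma norm_intEmb_ne_zero {x : 𝓞 K} (hx : x ≠ 0) : mixedEmbedding.norm (intEmb x) ≠ 0 := by
  rw [norm_intEmb, Ne, Nat.cast_eq_zero, Ideal.absNorm_eq_zero_iff, Ideal.span_singleton_eq_bot]
  exact hx

lemma gInt_zero {s : ℝ} (hs : s ≠ 0) : gInt (K := K) s 0 = 0 :=
  ft_eq_zero_of_norm_eq_zero hs (by rw [map_zero, map_zero])

lemma unit_smul_intEmb (v : (𝓞 K)ˣ) (x : 𝓞 K) : v • intEmb x = intEmb ((v : 𝓞 K) * x) := by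
  rw [unitSMul_smul, map_mul]
  rfl

lemma hasSum_gInt_units {x : 𝓞 K} (hx : x ≠ 0) (s : ℝ) :
    HasSum (fun v : (𝓞 K)ˣ ↦ gInt s ((v : 𝓞 K) * x))
      (torsionOrder K * (Ideal.absNorm (Ideal.span {x}) : ℝ) ^ (-s)) := by
  have h := hasSum_ft (norm_intEmb_ne_zero hx) s
  rw [norm_intEmb] at h
  simpa only [gInt, unit_smul_intEmb] using h

variable (K)

theorem summable_inv_norm_pow :
    Summable fun x : 𝓞 K ↦ ‖intEmb x‖⁻¹ ^ (finrank ℚ K + 1) := by
  have hrank : finrank ℤ (mixedEmbedding.integerLattice K) = finrank ℚ K := by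
    rw [ZLattice.rank ℝ (mixedEmbedding.integerLattice K), mixedEmbedding.finrank]
  have h := ZLattice.summable_norm_pow_inv (mixedEmbedding.integerLattice K)
    (finrank ℚ K + 1) (by omega)
  have hinj : Function.Injective
      (fun x : 𝓞 K ↦ (⟨intEmb x, ⟨x, rfl⟩⟩ : mixedEmbedding.integerLattice K)) :=
    fun x y hxy ↦ intEmb_injective (congrArg Subtype.val hxy)
  exact (h.comp_injective hinj).congr fun x ↦ rfl

theorem finite_setOf_norm_le (T : ℝ) : {x : 𝓞 K | ‖intEmb x‖ ≤ T}.Finite := by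
  have h : ((mixedEmbedding.integerLattice K : Set (mixedSpace K)) ∩
      Metric.closedBall 0 T).Finite := by
    rw [← span_latticeBasis, Set.inter_comm]
    exact ZSpan.setFinite_inter _ Metric.isBounded_closedBall
  refine (h.preimage intEmb_injective.injOn).subset fun x hx ↦ ?_
  exact ⟨⟨x, rfl⟩, by simpa using hx⟩

variable {K}

/-- Comparison of the sums over two translates of a subset of the lattice. -/
theorem exists_abs_gInt_add_sub_le (a : 𝓞 K) :
    ∃ u : 𝓞 K → ℝ, Summable u ∧ ∀ x : 𝓞 K, ∀ s : ℝ, 1 ≤ s → s ≤ 2 →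
      |gInt s (a + x) - gInt s x| ≤ u x := by
  obtain ⟨T, C, hC⟩ := exists_abs_ft_sub_le K (intEmb a)
  let B : 𝓞 K → ℝ := fun y ↦
    mixedEmbedding.norm (intEmb y) ^ (-1 : ℝ) + mixedEmbedding.norm (intEmb y) ^ (-2 : ℝ)
  refine ⟨fun x ↦ if T ≤ ‖intEmb x‖ then C * ‖intEmb x‖⁻¹ ^ (finrank ℚ K + 1)
    else B (a + x) + B x, ?_, fun x s hs hs' ↦ ?_⟩
  · refine ((summable_inv_norm_pow K).mul_left C).congr_cofinite ?_
    rw [Filter.EventuallyEq, Filter.eventually_cofinite]
    refine (finite_setOf_norm_le K T).subset fun x hx ↦ ?_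
    by_contra h
    exact hx (if_pos (le_of_not_ge h)).symm
  · dsimp only
    split_ifs with h
    · have := hC (intEmb x) h s hs hs'
      rwa [← map_add, add_comm] at this
    · refine (abs_sub _ _).trans (add_le_add ?_ ?_) <;>
      · rw [abs_of_nonneg (gInt_nonneg _ _)]
        exact ft_le hs hs' _

theorem summable_gInt {s : ℝ} (hs : 1 < s) : Summable (gInt (K := K) s) := by
  obtain ⟨c, hc0, hc1, hc⟩ := exists_coneConst (K := K)
  set d : ℝ := (finrank ℚ K : ℝ) with hd
  have hd0 : 0 < d := Nat.cast_pos.mpr finrank_pos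
  have hrank : finrank ℤ (mixedEmbedding.integerLattice K) = finrank ℚ K := by
    rw [ZLattice.rank ℝ (mixedEmbedding.integerLattice K), mixedEmbedding.finrank]
  have h := ZLattice.summable_norm_rpow (mixedEmbedding.integerLattice K) (d * -s) (by
    rw [hrank, ← hd]; nlinarith)
  have hinj : Function.Injective
      (fun x : 𝓞 K ↦ (⟨intEmb x, ⟨x, rfl⟩⟩ : mixedEmbedding.integerLattice K)) :=
    fun x y hxy ↦ intEmb_injective (congrArg Subtype.val hxy)
  refine Summable.of_nonneg_of_le (gInt_nonneg s) (fun x ↦ ?_)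
    ((h.comp_injective hinj).mul_left (c ^ (d * -s)))
  simp only [Function.comp_apply, Submodule.coe_norm]
  rcases eq_or_ne (gInt s x) 0 with h0 | h0
  · rw [h0]; positivity
  · have hx : x ≠ 0 := fun hx ↦ h0 (hx ▸ gInt_zero (by linarith))
    have hw : wf (intEmb x) ≠ 0 := fun hw ↦ h0 (by rw [gInt, ft, hw, zero_mul])
    have hN := norm_intEmb_ne_zero hx
    have hxpos : 0 < ‖intEmb x‖ := norm_pos_iff.mpr fun h0 ↦ hN (by rw [h0, map_zero])
    have hlow : (c * ‖intEmb x‖) ^ finrank ℚ K ≤ mixedEmbedding.norm (intEmb x) := by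
      rw [mixedEmbedding.norm_apply, ← InfinitePlace.sum_mult_eq, ← Finset.prod_pow_eq_pow_sum]
      exact Finset.prod_le_prod (fun w _ ↦ by positivity) fun w _ ↦
        pow_le_pow_left₀ (by positivity) (hc _ hN hw w) _
    calc gInt s x ≤ mixedEmbedding.norm (intEmb x) ^ (-s) :=
          mul_le_of_le_one_left (Real.rpow_nonneg (mixedEmbedding.norm_nonneg _) _) (wf_le_one _)
      _ ≤ ((c * ‖intEmb x‖) ^ finrank ℚ K) ^ (-s) :=
          Real.rpow_le_rpow_of_nonpos (by positivity) hlow (by linarith)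
      _ = c ^ (d * -s) * ‖intEmb x‖ ^ (d * -s) := by
          rw [← Real.rpow_natCast, ← Real.rpow_mul (by positivity), ← hd,
            Real.mul_rpow hc0.le hxpos.le]

theorem exists_abs_tsum_gInt_add_sub_le (a : 𝓞 K) (S : Ideal (𝓞 K)) :
    ∃ E : ℝ, ∀ s : ℝ, 1 < s → s ≤ 2 →
      |(∑' x : S, gInt s (a + (x : 𝓞 K))) - ∑' x : S, gInt s (x : 𝓞 K)| ≤ E := by
  obtain ⟨u, hu, hbound⟩ := exists_abs_gInt_add_sub_le a
  refine ⟨∑' x : S, u x, fun s hs hs' ↦ ?_⟩
  have h1 : Summable fun x : S ↦ gInt s (a + (x : 𝓞 K)) :=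
    (summable_gInt hs).comp_injective ((add_right_injective a).comp Subtype.val_injective)
  have h2 : Summable fun x : S ↦ gInt s (x : 𝓞 K) :=
    (summable_gInt hs).comp_injective Subtype.val_injective
  have h3 : Summable fun x : S ↦ u x := hu.comp_injective Subtype.val_injective
  rw [← h1.tsum_sub h2]
  have h4 := tsum_of_norm_bounded (f := fun x : S ↦ gInt s (a + (x : 𝓞 K)) - gInt s (x : 𝓞 K))
    h3.hasSum (fun x ↦ by rw [Real.norm_eq_abs]; exact hbound x s hs.le hs')
  rwa [Real.norm_eq_abs] at h4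

end Fermat.Agent.ClassField.Analytic
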