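import Mathlib.NumberTheory.NumberField.DedekindZeta
import Mathlib.RingTheory.DedekindDomain.Factorization
import Fermat.Agent.ClassField.Analytic.Defs
import Fermat.Agent.ClassField.Analytic.LatticeSum

/-!
# From sums over lattice points to sums over ideals in an ideal class
-/

noncomputable section

open NumberField Module NumberField.Units nonZeroDivisors
open scoped Classical

namespace Fermat.Agent.ClassField.Analytic

variable {K : Type*} [Field K] [NumberField K]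

lemma norm_apply_le_one {m : Ideal (𝓞 K)} {χ : Ideal (𝓞 K) →* ℂ} (hχ : IsRayChar m χ)
    {I : Ideal (𝓞 K)} (hI : I ≠ ⊥) : ‖χ I‖ ≤ 1 := by
  by_cases h : I ⊔ m = ⊤
  · exact (hχ.norm_eq_one I hI h).le
  · simp [hχ.eq_zero I h]

lemma span_sup_eq_of_sub_mem {m : Ideal (𝓞 K)} {x y : 𝓞 K} (h : x - y ∈ m) :
    Ideal.span {x} ⊔ m = Ideal.span {y} ⊔ m := by
  apply le_antisymm <;> refine sup_le ((Ideal.span_singleton_le_iff_mem _).mpr ?_) le_sup_right <;>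
    rw [Ideal.mem_span_singleton_sup]
  · exact ⟨1, x - y, h, by ring⟩
  · exact ⟨1, y - x, neg_sub x y ▸ m.neg_mem h, by ring⟩

lemma apply_span_congr {m : Ideal (𝓞 K)} {χ : Ideal (𝓞 K) →* ℂ} (hχ : IsRayChar m χ)
    {x y : 𝓞 K} (hx : x ≠ 0) (hy : y ≠ 0) (h : x - y ∈ m) :
    χ (Ideal.span {x}) = χ (Ideal.span {y}) := by
  by_cases hc : Ideal.span {x} ⊔ m = ⊤
  · exact hχ.congr_mod x y hx hy hc h
  · rw [hχ.eq_zero _ hc, hχ.eq_zero _ (span_sup_eq_of_sub_mem h ▸ hc)]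

/-- Nonzero principal multiples of `J`. -/
abbrev PrincipalBelow (J : Ideal (𝓞 K)) : Type _ :=
  {I : Ideal (𝓞 K) // I ≠ ⊥ ∧ I ≤ J ∧ I.IsPrincipal}

/-- A chosen generator. -/
def gen {J : Ideal (𝓞 K)} (I : PrincipalBelow J) : 𝓞 K :=
  haveI := I.2.2.2
  Submodule.IsPrincipal.generator I.1

lemma span_gen {J : Ideal (𝓞 K)} (I : PrincipalBelow J) : Ideal.span {gen I} = I.1 :=
  haveI := I.2.2.2
  Ideal.span_singleton_generator I.1

lemma gen_ne_zero {J : Ideal (𝓞 K)} (I : PrincipalBelow J) : gen I ≠ 0 := fun h ↦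
  I.2.1 (by rw [← span_gen I, h, Ideal.span_singleton_eq_bot])

lemma span_unit_mul_gen {J : Ideal (𝓞 K)} (p : PrincipalBelow J × (𝓞 K)ˣ) :
    Ideal.span {((p.2 : (𝓞 K)ˣ) : 𝓞 K) * gen p.1} = p.1.1 := by
  rw [Ideal.span_singleton_mul_left_unit p.2.isUnit, span_gen]

/-- Nonzero elements of `J`, as pairs of a principal ideal below `J` and a unit. -/
def pairToElem {J : Ideal (𝓞 K)} (p : PrincipalBelow J × (𝓞 K)ˣ) : J :=
  ⟨((p.2 : (𝓞 K)ˣ) : 𝓞 K) * gen p.1,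
    p.1.2.2.1 (span_unit_mul_gen p ▸ Ideal.mem_span_singleton_self _)⟩

lemma pairToElem_injective {J : Ideal (𝓞 K)} : Function.Injective (pairToElem (J := J)) := by
  rintro ⟨I, v⟩ ⟨I', v'⟩ h
  have h' : (v : 𝓞 K) * gen I = (v' : 𝓞 K) * gen I' := congrArg Subtype.val h
  have hI : I = I' := Subtype.ext (by rw [← span_unit_mul_gen (I, v), h', span_unit_mul_gen (I', v')])
  subst hI
  rw [Units.ext (mul_right_cancel₀ (gen_ne_zero I) h')]

lemma mem_range_pairToElem {J : Ideal (𝓞 K)} (x : J) (hx : (x : 𝓞 K) ≠ 0) :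
    x ∈ Set.range (pairToElem (J := J)) := by
  let I : PrincipalBelow J := ⟨Ideal.span {(x : 𝓞 K)},
    by simpa [Ideal.span_singleton_eq_bot] using hx,
    (Ideal.span_singleton_le_iff_mem _).mpr x.2, ⟨⟨(x : 𝓞 K), rfl⟩⟩⟩
  obtain ⟨v, hv⟩ := Ideal.span_singleton_eq_span_singleton.mp
    (show Ideal.span {gen I} = Ideal.span {(x : 𝓞 K)} from span_gen I)
  exact ⟨(I, v), Subtype.ext (by rw [← hv]; exact mul_comm _ _)⟩

/-- The sum over the lattice points of `J` of a function of the ideal they generate. -/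
theorem hasSum_principalBelow {J : Ideal (𝓞 K)} {ψ : Ideal (𝓞 K) → ℂ}
    (hψ : ∀ I, I ≠ ⊥ → ‖ψ I‖ ≤ 1) {s : ℝ} (hs : 1 < s) :
    HasSum (fun I : PrincipalBelow J ↦ (torsionOrder K : ℂ) * lTerm ψ s I.1)
      (∑' x : J, ψ (Ideal.span {(x : 𝓞 K)}) * (gInt s (x : 𝓞 K) : ℂ)) := by
  set F : J → ℂ := fun x ↦ ψ (Ideal.span {(x : 𝓞 K)}) * (gInt s (x : 𝓞 K) : ℂ) with hF
  have hs0 : s ≠ 0 := by linarith
  have hsum : Summable F := by
    refine Summable.of_norm_bounded ((summable_gInt hs).comp_injective Subtype.val_injective)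
      fun x ↦ ?_
    rcases eq_or_ne (x : 𝓞 K) 0 with h0 | h0
    · simp [hF, h0, gInt_zero hs0]
    · simp only [hF, Function.comp_apply, norm_mul, Complex.norm_real, Real.norm_eq_abs,
        abs_of_nonneg (gInt_nonneg s _)]
      exact mul_le_of_le_one_left (gInt_nonneg _ _)
        (hψ _ (by simpa [Ideal.span_singleton_eq_bot] using h0))
  have h2 : HasSum (F ∘ pairToElem) (∑' x, F x) := by
    refine (pairToElem_injective.hasSum_iff fun x hx ↦ ?_).mpr hsum.hasSum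
    have h0 : (x : 𝓞 K) = 0 := not_ne_iff.mp fun h ↦ hx (mem_range_pairToElem x h)
    simp [hF, h0, gInt_zero hs0]
  refine h2.prod_fiberwise fun I ↦ ?_
  have h3 : HasSum (fun v : (𝓞 K)ˣ ↦ (gInt s ((v : 𝓞 K) * gen I) : ℂ))
      ((torsionOrder K * (Ideal.absNorm (Ideal.span {gen I}) : ℝ) ^ (-s) : ℝ) : ℂ) :=
    Complex.hasSum_ofReal.mpr (hasSum_gInt_units (gen_ne_zero I) s)
  have h4 := h3.mul_left (ψ I.1)
  rw [span_gen] at h4
  have h5 : (fun v : (𝓞 K)ˣ ↦ (F ∘ pairToElem) (I, v)) =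
      fun v : (𝓞 K)ˣ ↦ ψ I.1 * (gInt s ((v : 𝓞 K) * gen I) : ℂ) := by
    funext v
    simp only [Function.comp_apply, hF, pairToElem]
    rw [span_unit_mul_gen (I, v)]
  rw [h5]
  have h6 : (torsionOrder K : ℂ) * lTerm ψ s I.1 =
      ψ I.1 * ((torsionOrder K * (Ideal.absNorm I.1 : ℝ) ^ (-s) : ℝ) : ℂ) := by
    rw [lTerm, Complex.ofReal_mul, Complex.ofReal_natCast]
    ring
  rw [h6]
  exact h4

/-- Ideals in a given class. -/
abbrev InClass (c : ClassGroup (𝓞 K)) : Type _ :=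
  {I : Ideal (𝓞 K) // ∃ hI : I ∈ (Ideal (𝓞 K))⁰, ClassGroup.mk0 ⟨I, hI⟩ = c}

lemma mk0_mul_eq_one_iff {I J : Ideal (𝓞 K)} (hI : I ∈ (Ideal (𝓞 K))⁰) (hJ : J ∈ (Ideal (𝓞 K))⁰) :
    ClassGroup.mk0 ⟨I, hI⟩ * ClassGroup.mk0 ⟨J, hJ⟩ = 1 ↔ (I * J).IsPrincipal := by
  rw [← map_mul]
  exact ClassGroup.mk0_eq_one_iff (mul_mem hI hJ)

/-- `I ↦ J * I` as a map. -/
def classMap {c : ClassGroup (𝓞 K)} (J : (Ideal (𝓞 K))⁰) (hJ : ClassGroup.mk0 J = c⁻¹)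
    (I : InClass c) : PrincipalBelow (J : Ideal (𝓞 K)) :=
  ⟨J.1 * I.1, by
    obtain ⟨hI, hc⟩ := I.2
    refine ⟨mem_nonZeroDivisors_iff_ne_zero.mp (mul_mem J.2 hI), Ideal.mul_le_left, ?_⟩
    apply (mk0_mul_eq_one_iff J.2 hI).mp
    rw [hc, Subtype.coe_eta, hJ, inv_mul_cancel]⟩

lemma classMap_bijective {c : ClassGroup (𝓞 K)} (J : (Ideal (𝓞 K))⁰)
    (hJ : ClassGroup.mk0 J = c⁻¹) : Function.Bijective (classMap J hJ) := by
  refine ⟨fun I I' h ↦ Subtype.ext (mul_left_cancel₀ (mem_nonZeroDivisors_iff_ne_zero.mp J.2)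
    (congrArg Subtype.val h)), fun P ↦ ?_⟩
  obtain ⟨I, hI⟩ := Ideal.dvd_iff_le.mpr P.2.2.1
  have hI0 : I ∈ (Ideal (𝓞 K))⁰ := mem_nonZeroDivisors_iff_ne_zero.mpr fun h ↦
    P.2.1 (by rw [hI, h, mul_zero]; rfl)
  refine ⟨⟨I, hI0, ?_⟩, Subtype.ext hI.symm⟩
  have h1 := (mk0_mul_eq_one_iff J.2 hI0).mpr (hI ▸ P.2.2.2)
  rw [Subtype.coe_eta, hJ, inv_mul_eq_one] at h1
  exact h1.symm

/-- `I ↦ J * I` from the class inverse to that of `J` to the principal multiples of `J`. -/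
def classEquiv {c : ClassGroup (𝓞 K)} (J : (Ideal (𝓞 K))⁰) (hJ : ClassGroup.mk0 J = c⁻¹) :
    InClass c ≃ PrincipalBelow (J : Ideal (𝓞 K)) :=
  Equiv.ofBijective (classMap J hJ) (classMap_bijective J hJ)

lemma classEquiv_apply {c : ClassGroup (𝓞 K)} (J : (Ideal (𝓞 K))⁰)
    (hJ : ClassGroup.mk0 J = c⁻¹) (I : InClass c) :
    ((classEquiv J hJ I : PrincipalBelow (J : Ideal (𝓞 K))) : Ideal (𝓞 K)) = J * I.1 := rfl

lemma lTerm_mul (χ : Ideal (𝓞 K) →* ℂ) (s : ℝ) (I J : Ideal (𝓞 K)) :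
    lTerm χ s (I * J) = lTerm χ s I * lTerm χ s J := by
  simp [lTerm, Real.mul_rpow]
  ring

theorem hasSum_inClass {c : ClassGroup (𝓞 K)} (J : (Ideal (𝓞 K))⁰)
    (hJ : ClassGroup.mk0 J = c⁻¹) {χ : Ideal (𝓞 K) →* ℂ}
    (hψ : ∀ I, I ≠ ⊥ → ‖χ I‖ ≤ 1) {s : ℝ} (hs : 1 < s) :
    HasSum (fun I : InClass c ↦ (torsionOrder K : ℂ) * lTerm χ s (J : Ideal (𝓞 K)) * lTerm χ s I.1)
      (∑' x : (J : Ideal (𝓞 K)), χ (Ideal.span {(x : 𝓞 K)}) * (gInt s (x : 𝓞 K) : ℂ)) := by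
  refine ((classEquiv J hJ).hasSum_iff.mpr (hasSum_principalBelow hψ hs)).congr_fun fun I ↦ ?_
  rw [Function.comp_apply, classEquiv_apply, lTerm_mul, mul_assoc]

/-- Every nonzero ideal lies in exactly one class. -/
def sigmaInClassEquiv : (c : ClassGroup (𝓞 K)) × InClass c ≃ {I : Ideal (𝓞 K) // I ≠ ⊥} where
  toFun p := ⟨p.2.1, by obtain ⟨hI, -⟩ := p.2.2; exact mem_nonZeroDivisors_iff_ne_zero.mp hI⟩
  invFun I := ⟨_, I.1, mem_nonZeroDivisors_iff_ne_zero.mpr I.2, rfl⟩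
  left_inv := by rintro ⟨c, I, hI, rfl⟩; rfl
  right_inv _ := rfl

lemma exists_rep_coprime {m : Ideal (𝓞 K)} (hm : m ≠ ⊥) (c : ClassGroup (𝓞 K)) :
    ∃ J : (Ideal (𝓞 K))⁰, ClassGroup.mk0 J = c ∧ (J : Ideal (𝓞 K)) ⊔ m = ⊤ := by
  obtain ⟨I, hI⟩ := ClassGroup.mk0_surjective c⁻¹
  have hI0 : (I : Ideal (𝓞 K)) ≠ ⊥ := mem_nonZeroDivisors_iff_ne_zero.mp I.2
  obtain ⟨a, ha⟩ := IsDedekindDomain.exists_sup_span_eq
    (Ideal.mul_le_left : (I : Ideal (𝓞 K)) * m ≤ I) (mul_ne_zero hI0 hm)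
  obtain ⟨a, ha0, ha⟩ : ∃ a' : 𝓞 K, a' ≠ 0 ∧
      (I : Ideal (𝓞 K)) * m ⊔ Ideal.span {a'} = I := by
    rcases eq_or_ne a 0 with rfl | h
    · obtain ⟨b, hb, hb0⟩ := Submodule.exists_mem_ne_zero_of_ne_bot
        (mul_ne_zero hI0 hm : (I : Ideal (𝓞 K)) * m ≠ ⊥)
      refine ⟨b, hb0, ?_⟩
      rw [Ideal.span_singleton_eq_bot.mpr rfl, sup_bot_eq] at ha
      rw [sup_eq_left.mpr ((Ideal.span_singleton_le_iff_mem _).mpr hb), ha]
    · exact ⟨a, h, ha⟩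
  obtain ⟨J, hJ⟩ := Ideal.dvd_iff_le.mpr (le_trans le_sup_right ha.le)
  have hJ0 : J ∈ (Ideal (𝓞 K))⁰ := mem_nonZeroDivisors_iff_ne_zero.mpr fun h ↦
    ha0 (Ideal.span_singleton_eq_bot.mp (by rw [hJ, h, mul_zero]; rfl))
  refine ⟨⟨J, hJ0⟩, ?_, ?_⟩
  · have h1 := (mk0_mul_eq_one_iff I.2 hJ0).mpr ⟨⟨a, hJ.symm⟩⟩
    rw [Subtype.coe_eta, hI, inv_mul_eq_one] at h1
    exact h1.symm
  · refine mul_left_cancel₀ hI0 ?_
    rw [Ideal.mul_sup, Ideal.mul_top, ← hJ, sup_comm, ha]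

theorem summable_norm_lTerm' {χ : Ideal (𝓞 K) →* ℂ} (hψ : ∀ I, I ≠ ⊥ → ‖χ I‖ ≤ 1) {s : ℝ}
    (hs : 1 < s) : Summable fun I ↦ ‖lTerm χ s I‖ := by
  -- compare with the trivial character
  have key : Summable fun I ↦ ‖lTerm (fun _ : Ideal (𝓞 K) ↦ (1 : ℂ)) s I‖ := by
    have h1 : Summable fun I : {I : Ideal (𝓞 K) // I ≠ ⊥} ↦
        ‖lTerm (fun _ : Ideal (𝓞 K) ↦ (1 : ℂ)) s I.1‖ := by
      rw [← sigmaInClassEquiv.summable_iff]
      refine (summable_sigma_of_nonneg fun p ↦ _root_.norm_nonneg _).mpr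
        ⟨fun c ↦ ?_, Summable.of_finite⟩
      obtain ⟨J, hJ⟩ := ClassGroup.mk0_surjective c⁻¹
      have h := (hasSum_inClass J hJ (χ := (1 : Ideal (𝓞 K) →* ℂ))
        (fun I _ ↦ by simp) hs).summable
      have hne : (torsionOrder K : ℂ) * lTerm (1 : Ideal (𝓞 K) →* ℂ) s (J : Ideal (𝓞 K)) ≠ 0 := by
        have : (0 : ℝ) < (Ideal.absNorm (J : Ideal (𝓞 K)) : ℝ) := Nat.cast_pos.mpr
          (Nat.pos_of_ne_zero (Ideal.absNorm_eq_zero_iff.not.mpr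
            (mem_nonZeroDivisors_iff_ne_zero.mp J.2)))
        refine mul_ne_zero (Nat.cast_ne_zero.mpr (torsionOrder_pos K).ne') ?_
        simp only [lTerm, MonoidHom.one_apply, one_mul, ne_eq, Complex.ofReal_eq_zero]
        exact (Real.rpow_pos_of_pos this _).ne'
      exact ((summable_mul_left_iff hne).mp h).norm
    refine (Subtype.val_injective.summable_iff fun I hI ↦ ?_).mp h1
    have hI0 : I = ⊥ := not_ne_iff.mp fun h ↦ hI ⟨⟨I, h⟩, rfl⟩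
    simp [hI0, lTerm, Real.zero_rpow (neg_ne_zero.mpr (show s ≠ 0 by linarith))]
  refine Summable.of_nonneg_of_le (fun _ ↦ _root_.norm_nonneg _) (fun I ↦ ?_) key
  rcases eq_or_ne I ⊥ with rfl | hI
  · simp [lTerm, Real.zero_rpow (neg_ne_zero.mpr (show s ≠ 0 by linarith))]
  · simp only [lTerm, norm_mul, one_mul]
    exact mul_le_of_le_one_left (_root_.norm_nonneg _) (hψ I hI)

theorem hasSum_classes {χ : Ideal (𝓞 K) →* ℂ} (hψ : ∀ I, I ≠ ⊥ → ‖χ I‖ ≤ 1) {s : ℝ}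
    (hs : 1 < s) :
    ∑' I, lTerm χ s I = ∑ c : ClassGroup (𝓞 K), ∑' I : InClass c, lTerm χ s I.1 := by
  have h := (summable_norm_lTerm' hψ hs).of_norm
  have h1 : HasSum (fun I : {I : Ideal (𝓞 K) // I ≠ ⊥} ↦ lTerm χ s I.1) (∑' I, lTerm χ s I) := by
    refine (Subtype.val_injective.hasSum_iff fun I hI ↦ ?_).mpr h.hasSum
    have hI0 : I = ⊥ := not_ne_iff.mp fun h ↦ hI ⟨⟨I, h⟩, rfl⟩
    simp [hI0, lTerm, Real.zero_rpow (neg_ne_zero.mpr (show s ≠ 0 by linarith))]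
  rw [← sigmaInClassEquiv.hasSum_iff] at h1
  rw [← h1.tsum_eq, h1.summable.tsum_sigma, tsum_fintype]
  rfl

/-- `(s - 1) ∑_{x ∈ 𝓞 K} gInt s x` is bounded on `(1, 2]`. -/
theorem exists_sub_one_mul_tsum_gInt_le :
    ∃ M : ℝ, ∀ s : ℝ, 1 < s → s ≤ 2 → (s - 1) * ∑' x : 𝓞 K, gInt s x ≤ M := by
  let a : ℕ → ℂ := fun n ↦ (Nat.card {I : Ideal (𝓞 K) // Ideal.absNorm I = n} : ℂ)
  let Z : ℝ → ℝ := fun s ↦ ∑' I : Ideal (𝓞 K), (Ideal.absNorm I : ℝ) ^ (-s)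
  have hsumZ : ∀ s : ℝ, 1 < s → Summable fun I : Ideal (𝓞 K) ↦ (Ideal.absNorm I : ℝ) ^ (-s) := by
    intro s hs
    refine (summable_norm_lTerm' (χ := (1 : Ideal (𝓞 K) →* ℂ)) (fun I _ ↦ by simp) hs).congr
      fun I ↦ ?_
    simp [lTerm, abs_of_nonneg (Real.rpow_nonneg (Nat.cast_nonneg _) _)]
  have hzeta : ∀ s : ℝ, 1 < s → dedekindZeta K s = (Z s : ℂ) := by
    intro s hs
    have h : HasSum (fun I : Ideal (𝓞 K) ↦ (((Ideal.absNorm I : ℝ) ^ (-s) : ℝ) : ℂ)) (Z s : ℂ) :=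
      Complex.hasSum_ofReal.mpr (hsumZ s hs).hasSum
    rw [← (Equiv.sigmaFiberEquiv (Ideal.absNorm : Ideal (𝓞 K) → ℕ)).hasSum_iff] at h
    have h' : HasSum (LSeries.term a (s : ℂ)) (Z s : ℂ) := by
      refine h.sigma fun n ↦ ?_
      have : Finite {I : Ideal (𝓞 K) // Ideal.absNorm I = n} :=
        (Ideal.finite_setOfPred_absNorm_eq n).to_subtype
      haveI := Fintype.ofFinite {I : Ideal (𝓞 K) // Ideal.absNorm I = n}
      have hterm : LSeries.term a (s : ℂ) n =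
          ∑ I : {I : Ideal (𝓞 K) // Ideal.absNorm I = n},
            (((Ideal.absNorm I.1 : ℝ) ^ (-s) : ℝ) : ℂ) := by
        rw [Finset.sum_congr rfl (fun I _ ↦ by rw [I.2] : ∀ I ∈ Finset.univ, _ =
          (((n : ℝ) ^ (-s) : ℝ) : ℂ)), Finset.sum_const, Finset.card_univ, nsmul_eq_mul,
          ← Nat.card_eq_fintype_card]
        rcases eq_or_ne n 0 with rfl | hn
        · simp [LSeries.term, Real.zero_rpow (neg_ne_zero.mpr (show s ≠ 0 by linarith))]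
        · rw [LSeries.term_of_ne_zero hn, Complex.ofReal_cpow (Nat.cast_nonneg n),
            Complex.ofReal_neg, Complex.cpow_neg, div_eq_mul_inv]
          simp [a]
      rw [hterm]
      exact hasSum_fintype _
    exact h'.tsum_eq
  have hle : ∀ s : ℝ, 1 < s → ∑' x : 𝓞 K, gInt s x ≤ torsionOrder K * Z s := by
    intro s hs
    have h := hasSum_principalBelow (J := (⊤ : Ideal (𝓞 K))) (ψ := fun _ ↦ (1 : ℂ))
      (fun I _ ↦ by simp) hs
    have h2 : (∑' x : (⊤ : Ideal (𝓞 K)), (1 : ℂ) * (gInt s (x : 𝓞 K) : ℂ)) =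
        ((∑' x : 𝓞 K, gInt s x : ℝ) : ℂ) := by
      rw [Complex.ofReal_tsum]
      simp only [one_mul]
      exact (Equiv.subtypeUnivEquiv (fun _ ↦ Submodule.mem_top)).tsum_eq
        (fun x : 𝓞 K ↦ ((gInt s x : ℝ) : ℂ))
    rw [h2] at h
    simp only [lTerm, one_mul] at h
    have h3 : HasSum (fun I : PrincipalBelow (⊤ : Ideal (𝓞 K)) ↦
        (torsionOrder K : ℝ) * (Ideal.absNorm I.1 : ℝ) ^ (-s)) (∑' x : 𝓞 K, gInt s x) :=
      Complex.hasSum_ofReal.mp (by simpa [Complex.ofReal_mul] using h)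
    rw [← h3.tsum_eq, tsum_mul_left]
    exact mul_le_mul_of_nonneg_left (tsum_comp_le_tsum_of_inj (hsumZ s hs)
      (fun _ ↦ by positivity) Subtype.val_injective) (Nat.cast_nonneg _)
  have hlim := (Complex.continuous_re.tendsto _).comp (tendsto_sub_one_mul_dedekindZeta_nhdsGT K)
  have hev : ∀ᶠ s : ℝ in nhdsWithin 1 (Set.Ioi 1),
      (s - 1) * Z s ≤ dedekindZeta_residue K + 1 := by
    have h := hlim.eventually (eventually_le_nhds (b := dedekindZeta_residue K + 1) (by simp))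
    filter_upwards [h, self_mem_nhdsWithin] with s h1 h2
    simpa [hzeta s (Set.mem_Ioi.mp h2)] using h1
  obtain ⟨b, hb, hball⟩ := (mem_nhdsGT_iff_exists_Ioo_subset).mp hev
  have hb1 : (1 : ℝ) < b := hb
  set t := (1 + b) / 2 with ht
  refine ⟨torsionOrder K * max (dedekindZeta_residue K + 1) (Z t), fun s hs hs' ↦ ?_⟩
  refine (mul_le_mul_of_nonneg_left (hle s hs) (by linarith)).trans ?_
  rw [← mul_assoc, mul_comm (s - 1), mul_assoc]
  refine mul_le_mul_of_nonneg_left ?_ (Nat.cast_nonneg _)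
  have hZ0 : 0 ≤ Z s := tsum_nonneg fun I ↦ by positivity
  rcases lt_or_ge s b with hsb | hsb
  · exact le_max_of_le_left (hball ⟨hs, hsb⟩)
  · refine le_max_of_le_right ((mul_le_of_le_one_left hZ0 (by linarith)).trans ?_)
    refine (hsumZ s hs).tsum_le_tsum (fun I ↦ ?_) (hsumZ t (by linarith))
    rcases Nat.eq_zero_or_pos (Ideal.absNorm I) with h0 | h0
    · rw [h0, Nat.cast_zero, Real.zero_rpow (by linarith), Real.zero_rpow (by linarith)]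
    · exact Real.rpow_le_rpow_of_exponent_le (by exact_mod_cast h0) (by linarith)

end Fermat.Agent.ClassField.Analytic
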