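import Mathlib.LinearAlgebra.Quotient.Card
import Mathlib.LinearAlgebra.FreeModule.IdealQuotient
import Fermat.Agent.ClassField.Analytic.Reorg

/-!
# The residue function of a ray class character and its sum
-/

noncomputable section

open NumberField Module NumberField.Units nonZeroDivisors
open scoped Classical

namespace Fermat.Agent.ClassField.Analytic

variable {K : Type*} [Field K] [NumberField K]

lemma exists_lift_ne_zero {m : Ideal (𝓞 K)} (hm : m ≠ ⊥) (β : 𝓞 K ⧸ m) :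
    ∃ x : 𝓞 K, x ≠ 0 ∧ Ideal.Quotient.mk m x = β := by
  obtain ⟨x, rfl⟩ := Ideal.Quotient.mk_surjective β
  by_cases hx : x = 0
  · obtain ⟨b, hb, hb0⟩ := Submodule.exists_mem_ne_zero_of_ne_bot hm
    exact ⟨b, hb0, by rw [hx, map_zero, Ideal.Quotient.eq_zero_iff_mem.mpr hb]⟩
  · exact ⟨x, hx, rfl⟩

/-- The value of `χ` at a principal ideal, as a function of the residue of the generator. -/
def resVal (χ : Ideal (𝓞 K) →* ℂ) {m : Ideal (𝓞 K)} (hm : m ≠ ⊥) (β : 𝓞 K ⧸ m) : ℂ :=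
  χ (Ideal.span {(exists_lift_ne_zero hm β).choose})

variable {m : Ideal (𝓞 K)} {χ : Ideal (𝓞 K) →* ℂ}

lemma apply_span_eq_resVal (hχ : IsRayChar m χ) (hm : m ≠ ⊥) {x : 𝓞 K} (hx : x ≠ 0) :
    χ (Ideal.span {x}) = resVal χ hm (Ideal.Quotient.mk m x) :=
  apply_span_congr hχ hx (exists_lift_ne_zero hm _).choose_spec.1
    (Ideal.Quotient.eq.mp (exists_lift_ne_zero hm _).choose_spec.2.symm)

lemma norm_resVal_le (hχ : IsRayChar m χ) (hm : m ≠ ⊥) (β : 𝓞 K ⧸ m) : ‖resVal χ hm β‖ ≤ 1 :=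
  norm_apply_le_one hχ fun h ↦
    (exists_lift_ne_zero hm β).choose_spec.1 (Ideal.span_singleton_eq_bot.mp h)

lemma finite_quotient {P : Ideal (𝓞 K)} (hP : P ≠ ⊥) : Finite (𝓞 K ⧸ P) :=
  Ideal.finiteQuotientOfFreeOfNeBot P hP

theorem sum_resVal_eq_zero (hχ : IsRayChar m χ) (hm : m ≠ ⊥) [Fintype (𝓞 K ⧸ m)] {x : 𝓞 K}
    (hx : x ≠ 0) (hc : Ideal.span {x} ⊔ m = ⊤) (hne : χ (Ideal.span {x}) ≠ 1) :
    ∑ β : 𝓞 K ⧸ m, resVal χ hm β = 0 := by
  have hu : IsUnit (Ideal.Quotient.mk m x) := by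
    obtain ⟨a, b, hb, hab⟩ := Ideal.mem_span_singleton_sup.mp
      (hc ▸ Submodule.mem_top : (1 : 𝓞 K) ∈ Ideal.span {x} ⊔ m)
    refine IsUnit.of_mul_eq_one (Ideal.Quotient.mk m a) ?_
    rw [← map_mul, ← map_one (Ideal.Quotient.mk m), Ideal.Quotient.eq, ← hab]
    have : x * a - (a * x + b) = -b := by ring
    rw [this]
    exact m.neg_mem hb
  have h1 : ∀ β : 𝓞 K ⧸ m, resVal χ hm (Ideal.Quotient.mk m x * β) =
      χ (Ideal.span {x}) * resVal χ hm β := by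
    intro β
    obtain ⟨y, hy0, rfl⟩ := exists_lift_ne_zero hm β
    rw [← map_mul, ← apply_span_eq_resVal hχ hm (mul_ne_zero hx hy0),
      ← apply_span_eq_resVal hχ hm hy0, ← map_mul, Ideal.span_singleton_mul_span_singleton]
  have h2 : ∑ β : 𝓞 K ⧸ m, resVal χ hm β =
      χ (Ideal.span {x}) * ∑ β : 𝓞 K ⧸ m, resVal χ hm β := by
    conv_lhs => rw [← Equiv.sum_comp (hu.unit.mulLeft) (resVal χ hm)]
    rw [Finset.mul_sum]
    exact Finset.sum_congr rfl fun β _ ↦ h1 β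
  have h3 : (1 - χ (Ideal.span {x})) * ∑ β : 𝓞 K ⧸ m, resVal χ hm β = 0 := by
    rw [sub_mul, one_mul, ← h2, sub_self]
  exact (mul_eq_zero.mp h3).resolve_left (sub_ne_zero.mpr (Ne.symm hne))

/-- Splitting a sum over `J` along a finer ideal `P`. -/
theorem exists_coset_decomposition (hχ : IsRayChar m χ) (hm : m ≠ ⊥) [Fintype (𝓞 K ⧸ m)]
    {J P : Ideal (𝓞 K)} (hP : P ≠ ⊥) (hPJ : P ≤ J) (hPm : P ≤ m) (hJm : J ⊔ m = ⊤) :
    ∃ E : ℝ, ∀ s : ℝ, 1 < s → s ≤ 2 →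
      ‖(∑' x : J, χ (Ideal.span {(x : 𝓞 K)}) * (gInt s (x : 𝓞 K) : ℂ)) -
        ((Ideal.absNorm P : ℂ) / ((Ideal.absNorm J : ℂ) * (Ideal.absNorm m : ℂ))) *
          (∑ β : 𝓞 K ⧸ m, resVal χ hm β) * ((∑' x : P, gInt s (x : 𝓞 K) : ℝ) : ℂ)‖ ≤ E := by
  haveI := finite_quotient hP
  let JP : Submodule (𝓞 K) (𝓞 K ⧸ P) := Submodule.map P.mkQ J
  haveI : Fintype JP := Fintype.ofFinite _
  have hrep : ∀ α : JP, ∃ x : 𝓞 K, x ∈ J ∧ Ideal.Quotient.mk P x = (α : 𝓞 K ⧸ P) := by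
    rintro ⟨α, hα⟩
    obtain ⟨x, hx, hx'⟩ := Submodule.mem_map.mp hα
    exact ⟨x, hx, hx'⟩
  choose rep hrepJ hrepP using hrep
  let e : JP × P ≃ J := Equiv.ofBijective
    (fun p ↦ ⟨rep p.1 + (p.2 : 𝓞 K), J.add_mem (hrepJ p.1) (hPJ p.2.2)⟩) ⟨by
      rintro ⟨α, y⟩ ⟨α', y'⟩ h
      have h' : rep α + (y : 𝓞 K) = rep α' + (y' : 𝓞 K) := congrArg Subtype.val h
      have hα : α = α' := Subtype.ext (by
        rw [← hrepP α, ← hrepP α', Ideal.Quotient.eq]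
        have h0 : rep α - rep α' = (y' : 𝓞 K) - (y : 𝓞 K) := by linear_combination h'
        rw [h0]
        exact P.sub_mem y'.2 y.2)
      subst hα
      rw [Subtype.ext (add_left_cancel h')], by
      intro x
      have hα : Ideal.Quotient.mk P (x : 𝓞 K) ∈ JP := Submodule.mem_map_of_mem x.2
      refine ⟨(⟨_, hα⟩, ⟨(x : 𝓞 K) - rep ⟨_, hα⟩, ?_⟩), Subtype.ext (add_sub_cancel _ _)⟩
      rw [← Ideal.Quotient.eq, hrepP]⟩
  let w : JP → ℂ := fun α ↦ resVal χ hm (Ideal.Quotient.mk m (rep α))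
  choose Eα hEα using fun α : JP ↦ exists_abs_tsum_gInt_add_sub_le (rep α) P
  refine ⟨∑ α, Eα α, fun s hs hs' ↦ ?_⟩
  have hs0 : s ≠ 0 := by linarith
  set F : J → ℂ := fun x ↦ χ (Ideal.span {(x : 𝓞 K)}) * (gInt s (x : 𝓞 K) : ℂ) with hF
  have hFe : ∀ p : JP × P, F (e p) = w p.1 * (gInt s (rep p.1 + (p.2 : 𝓞 K)) : ℂ) := by
    intro p
    change χ (Ideal.span {rep p.1 + (p.2 : 𝓞 K)}) * (gInt s (rep p.1 + (p.2 : 𝓞 K)) : ℂ) = _
    rcases eq_or_ne (rep p.1 + (p.2 : 𝓞 K)) 0 with h0 | h0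
    · rw [h0, gInt_zero hs0, Complex.ofReal_zero, mul_zero, mul_zero]
    · rw [apply_span_eq_resVal hχ hm h0, map_add, Ideal.Quotient.eq_zero_iff_mem.mpr (hPm p.2.2),
        add_zero]
  have hsum : Summable fun p : JP × P ↦ F (e p) := by
    refine Summable.of_norm_bounded (((summable_gInt hs).comp_injective
      Subtype.val_injective).comp_injective e.injective) fun p ↦ ?_
    rw [hFe, norm_mul, Complex.norm_real, Real.norm_eq_abs, abs_of_nonneg (gInt_nonneg _ _)]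
    exact mul_le_of_le_one_left (gInt_nonneg _ _) (norm_resVal_le hχ hm _)
  have hsumα : ∀ α : JP, Summable fun y : P ↦ gInt s (rep α + (y : 𝓞 K)) := fun α ↦
    (summable_gInt hs).comp_injective ((add_right_injective _).comp Subtype.val_injective)
  have hS : (∑' x : J, F x) = ∑ α, w α * ((∑' y : P, gInt s (rep α + (y : 𝓞 K)) : ℝ) : ℂ) := by
    rw [← e.tsum_eq F, hsum.tsum_prod, tsum_fintype]
    refine Finset.sum_congr rfl fun α _ ↦ ?_
    rw [Complex.ofReal_tsum, ← tsum_mul_left]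
    exact tsum_congr fun y ↦ hFe (α, y)
  -- the sum of the weights
  have hJ0 : J ≠ ⊥ := fun h ↦ hP (le_bot_iff.mp (h ▸ hPJ))
  have hcardJP : (Nat.card JP) * Ideal.absNorm J = Ideal.absNorm P := by
    rw [Ideal.absNorm_apply, Ideal.absNorm_apply, Submodule.cardQuot_apply,
      Submodule.cardQuot_apply, Submodule.card_eq_card_quotient_mul_card JP,
      Nat.card_congr (Submodule.quotientQuotientEquivQuotient P J hPJ).toEquiv]
  let f : JP →+ 𝓞 K ⧸ m :=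
    ((Ideal.Quotient.factor hPm).toAddMonoidHom).comp JP.subtype.toAddMonoidHom
  have hf : ∀ α : JP, f α = Ideal.Quotient.mk m (rep α) := fun α ↦ by
    change Ideal.Quotient.factor hPm (α : 𝓞 K ⧸ P) = _
    rw [← hrepP α, Ideal.Quotient.factor_mk]
  have hfsurj : Function.Surjective f := by
    intro β
    obtain ⟨b, rfl⟩ := Ideal.Quotient.mk_surjective β
    obtain ⟨j, hj, k, hk, hjk⟩ := Submodule.mem_sup.mp (hJm ▸ Submodule.mem_top : b ∈ J ⊔ m)
    refine ⟨⟨_, Submodule.mem_map_of_mem (f := P.mkQ) hj⟩, ?_⟩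
    change Ideal.Quotient.factor hPm (Ideal.Quotient.mk P j) = _
    rw [Ideal.Quotient.factor_mk, Ideal.Quotient.eq, ← hjk]
    simpa using m.neg_mem hk
  have hfib : ∀ β, (Finset.univ.filter fun α ↦ f α = β).card =
      (Finset.univ.filter fun α ↦ f α = 0).card := fun β ↦
    AddMonoidHom.card_fiber_eq_of_mem_range f (hfsurj β) (hfsurj 0)
  set k : ℕ := (Finset.univ.filter fun α ↦ f α = 0).card with hk
  have hk' : Nat.card JP = Fintype.card (𝓞 K ⧸ m) * k := by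
    rw [Nat.card_eq_fintype_card, ← Finset.card_univ,
      Finset.card_eq_sum_card_fiberwise (f := f) (t := Finset.univ) (fun _ _ ↦ Finset.mem_univ _)]
    simp [hfib]
  have hwsum : ∑ α, w α = ((Ideal.absNorm P : ℂ) / ((Ideal.absNorm J : ℂ) *
      (Ideal.absNorm m : ℂ))) * (∑ β : 𝓞 K ⧸ m, resVal χ hm β) := by
    have h1 : ∑ α, w α = (k : ℂ) * ∑ β : 𝓞 K ⧸ m, resVal χ hm β := by
      rw [← Finset.sum_fiberwise_of_maps_to (g := f) (fun _ _ ↦ Finset.mem_univ _) w,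
        Finset.mul_sum]
      refine Finset.sum_congr rfl fun β _ ↦ ?_
      rw [Finset.sum_congr rfl (fun α hα ↦ by
        simp only [w, ← hf, (Finset.mem_filter.mp hα).2] : ∀ α ∈ _, w α = resVal χ hm β),
        Finset.sum_const, hfib, nsmul_eq_mul]
    rw [h1]
    congr 1
    have hNJ : (Ideal.absNorm J : ℂ) ≠ 0 :=
      Nat.cast_ne_zero.mpr (Ideal.absNorm_eq_zero_iff.not.mpr hJ0)
    have hNm : (Ideal.absNorm m : ℂ) ≠ 0 :=
      Nat.cast_ne_zero.mpr (Ideal.absNorm_eq_zero_iff.not.mpr hm)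
    rw [eq_div_iff (mul_ne_zero hNJ hNm), ← hcardJP, hk', Ideal.absNorm_apply m,
      Submodule.cardQuot_apply, ← Nat.card_eq_fintype_card]
    push_cast
    ring
  rw [← hwsum, hS, Finset.sum_mul, ← Finset.sum_sub_distrib]
  refine (norm_sum_le _ _).trans (Finset.sum_le_sum fun α _ ↦ ?_)
  rw [← mul_sub, norm_mul, ← Complex.ofReal_sub, Complex.norm_real, Real.norm_eq_abs]
  exact (mul_le_of_le_one_left (abs_nonneg _) (norm_resVal_le hχ hm _)).trans (hEα α s hs hs')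

end Fermat.Agent.ClassField.Analytic
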